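import Fermat.Agent.ERep.Local

/-!
# Versions (up to a factor 2) of the local results for torsion points of arbitrary order
-/

set_option autoImplicit false

namespace Fermat.Agent.ERep

open WeierstrassCurve WeierstrassCurve.Affine WeierstrassCurve.Affine.Point
open Fermat.Agent.EC

section Galois

variable {R S K Γ₀ : Type*} [CommRing R] [CommRing S] [Field K] [DecidableEq K]
  [LinearOrderedCommGroupWithZero Γ₀] [Algebra R S] [Algebra R K] [Algebra S K]
  [IsScalarTower R S K] {v : Valuation K Γ₀} {W' : Affine R} {x₀ y₀ α β : K}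

/-- `σ P - P` does not reduce to the node if `P` is not on the middle component. -/
theorem Crit.not_nd_smul_sub' (h : Crit v (W'⁄K) x₀ y₀ α β) {σ : K ≃ₐ[S] K}
    (hσ : TrivMod v σ) (hσv : ∀ x, v (σ x) = v x) (hx₀ : σ x₀ = x₀) (hy₀ : σ y₀ = y₀)
    (hα : σ α = α) (hβ : σ β = β) {x y : K} (n : (W'⁄K).toAffine.Nonsingular x y)
    (hmid : Nd v x₀ y₀ (.some x y n : (W'⁄K).Point) →
      v ((y - y₀) - α * (x - x₀)) ≠ v ((y - y₀) - β * (x - x₀))) :
    ¬ Nd v x₀ y₀ (σ • (.some x y n : (W'⁄K).Point) - .some x y n) := by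
  have hσP : σ • (.some x y n : (W'⁄K).Point) = .some (σ x) (σ y)
    ((W'.baseChange_nonsingular (f := σ.toAlgHom) σ.toAlgHom.injective ..).mpr n) := rfl
  by_cases hnd : Nd v x₀ y₀ (.some x y n : (W'⁄K).Point)
  · rw [hσP]
    have eX : σ x - x₀ = σ (x - x₀) := by rw [map_sub, hx₀]
    have eu : (σ y - y₀) - α * (σ x - x₀) = σ ((y - y₀) - α * (x - x₀)) := by
      rw [map_sub σ (y - y₀), map_mul, map_sub σ y, map_sub σ x, hx₀, hy₀, hα]
    have ew : (σ y - y₀) - β * (σ x - x₀) = σ ((y - y₀) - β * (x - x₀)) := by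
      rw [map_sub σ (y - y₀), map_mul, map_sub σ y, map_sub σ x, hx₀, hy₀, hβ]
    exact h.not_nd_sub n _ hnd.1 (by rw [eX, hσv]; exact hnd.1) (by rw [eu, hσv])
      (by rw [ew, hσv]) (hmid hnd)
  · intro hcon
    have hE1 := smul_sub_inE1 h.isInt hσ (.some x y n) (fun hle => by
      have hx : v x ≤ 1 := by simpa using hle
      exact h.ns n.1 hx hnd)
    rcases hR : σ • (.some x y n : (W'⁄K).Point) - .some x y n with _ | ⟨x', y', n'⟩
    · rw [hR] at hcon
      exact hcon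
    · rw [hR] at hcon hE1
      have h4 : 1 < v x' := by simpa [InE1] using hE1
      have h5 : v x' ≤ 1 := by
        have : x' = (x' - x₀) + x₀ := by ring
        rw [this]
        exact im (add_mem (mem_of_lt hcon.1) (mi h.x₀_le))
      exact absurd h5 (not_le.mpr h4)

/-- torsion points not reducing to the node are fixed -/
theorem Crit.smul_eq (h : Crit v (W'⁄K) x₀ y₀ α β) {τ : K ≃ₐ[S] K} (hτ : TrivMod v τ)
    {P : (W'⁄K).Point} {m : ℕ} (hmv : v (m : K) = 1) (hP : m • P = 0)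
    (hnd : ¬ Nd v x₀ y₀ P) : τ • P = P := by
  refine smul_eq_of_ns h.isInt hτ _ (fun hle => ?_) hmv ?_
  · rcases P with _ | ⟨x', y', n'⟩
    · simp [← zero_def] at hle
    · exact h.ns n'.1 (by simpa using hle) hnd
  · rw [nsmul_sub, hP, sub_zero, ← smul_comm τ m, hP, smul_zero]

/-- **Unipotence** up to `2`. -/
theorem Crit.two_smul_smul_sub (h : Crit v (W'⁄K) x₀ y₀ α β) {σ τ : K ≃ₐ[S] K}
    (hσ : TrivMod v σ) (hσv : ∀ x, v (σ x) = v x) (hx₀ : σ x₀ = x₀) (hy₀ : σ y₀ = y₀)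
    (hα : σ α = α) (hβ : σ β = β) (hτ : TrivMod v τ) {P : (W'⁄K).Point} {m : ℕ}
    (hmv : v (m : K) = 1) (hP : m • P = 0) :
    2 • (τ • (σ • P - P) - (σ • P - P)) = 0 := by
  have hmR : m • (σ • P - P) = 0 := by
    rw [nsmul_sub, hP, sub_zero, ← smul_comm σ m P, hP, smul_zero]
  by_cases hmid : ∃ (x y : K) (n : (W'⁄K).toAffine.Nonsingular x y), P = .some x y n ∧
      Nd v x₀ y₀ (.some x y n : (W'⁄K).Point) ∧
        v ((y - y₀) - α * (x - x₀)) = v ((y - y₀) - β * (x - x₀))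
  · obtain ⟨x, y, n, rfl, hnd, heq⟩ := hmid
    have h1 := h.not_nd_two n hnd.1 heq
    rw [← two_nsmul] at h1
    have h2 : σ • (2 • (.some x y n : (W'⁄K).Point)) = 2 • .some x y n :=
      h.smul_eq hσ hmv (by rw [nsmul_left_comm, hP, nsmul_zero]) h1
    have h3 : 2 • (σ • (.some x y n : (W'⁄K).Point) - .some x y n) = 0 := by
      rw [nsmul_sub, ← smul_comm σ 2, h2, sub_self]
    rw [nsmul_sub, ← smul_comm τ 2, h3, smul_zero, sub_zero]
  · have h1 : ¬ Nd v x₀ y₀ (σ • P - P) := by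
      rcases P with _ | ⟨x, y, n⟩
      · have : σ • (Point.zero : (W'⁄K).Point) - Point.zero = 0 := by
          change σ • (0 : (W'⁄K).Point) - 0 = 0
          rw [smul_zero, sub_zero]
        rw [this]
        exact id
      · refine h.not_nd_smul_sub' hσ hσv hx₀ hy₀ hα hβ n fun hnd heq => ?_
        exact hmid ⟨x, y, n, rfl, hnd, heq⟩
    rw [h.smul_eq hτ hmv hmR h1, sub_self, smul_zero]

end Galois

section Model

variable (W : WeierstrassCurve ℤ) {L : Type*} [Field L] [Algebra ℚ L]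
  {A : ValuationSubring L} {q : ℕ}

variable [DecidableEq L]

/-- inertia is unipotent (up to 2) on torsion at multiplicative primes (integral model) -/
theorem two_inertia_mult_model [IsAlgClosed L] [Algebra.IsAlgebraic ℚ L] (hq : q.Prime)
    (hA : A.LiesOverPrime q) (hΔ : (q : ℤ) ∣ W.Δ) (hc : ¬ (q : ℤ) ∣ W.c₄)
    {σ τ : L ≃ₐ[ℚ] L} (hσ : σ ∈ A.inertiaSubgroupIn ℚ) (hτ : τ ∈ A.inertiaSubgroupIn ℚ)
    {m : ℕ} (hqm : ¬ q ∣ m) (P : ((W.map (Int.castRingHom ℚ))⁄L).Point)
    (hP : m • P = 0) : 2 • (τ • (σ • P - P) - (σ • P - P)) = 0 := by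
  have hvq : A.valuation (q : L) < 1 := A.mem_nonunits_iff.mp hA
  have : CharZero L := charZero_of_injective_algebraMap (algebraMap ℚ L).injective
  obtain ⟨x₀, y₀, α, β, h⟩ := exists_crit (v := A.valuation) (isInt_model (A := A) (L := L) W)
    (by rw [Δ_model]; exact val_int_lt_one hvq hΔ)
    (by rw [c₄_model]; exact val_int_eq_one hq hvq hc)
  have hTσ : TrivMod A.valuation σ := trivMod_of_mem_inertia A hσ
  have hTτ : TrivMod A.valuation τ := trivMod_of_mem_inertia A hτ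
  obtain ⟨h1, h2, h3, h4⟩ := h.fixed (R := ℚ) (S := ℚ) hTσ
  have hmv : A.valuation (m : L) = 1 := by
    have := val_int_eq_one (v := A.valuation) hq hvq (n := (m : ℤ)) (by
      intro hd; exact hqm (by exact_mod_cast hd))
    exact_mod_cast this
  exact h.two_smul_smul_sub hTσ (fun x => ECP.valuation_smul_eq A hσ x) h1 h2 h3 h4 hTτ hmv hP

end Model

section Main

open Fermat.Agent.FrobE

variable (E : WeierstrassCurve ℚ) {W : WeierstrassCurve ℤ} (hWE : W.IsIntegralModelOf E)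
  {L : Type*} [Field L] [Algebra ℚ L] [DecidableEq L] {A : ValuationSubring L} {q : ℕ}

include hWE

/-- **Inertia is unipotent** up to `2` on torsion at multiplicative primes. -/
theorem two_inertia_mult [IsAlgClosed L] [Algebra.IsAlgebraic ℚ L] (hq : q.Prime)
    (hA : A.LiesOverPrime q) (hΔ : (q : ℤ) ∣ W.Δ) (hc : ¬ (q : ℤ) ∣ W.c₄)
    {σ τ : L ≃ₐ[ℚ] L} (hσ : σ ∈ A.inertiaSubgroupIn ℚ) (hτ : τ ∈ A.inertiaSubgroupIn ℚ)
    {m : ℕ} (hqm : ¬ q ∣ m) (P : (E⁄L).Point) (hP : m • P = 0) :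
    2 • (τ • (σ • P - P) - (σ • P - P)) = 0 := by
  obtain ⟨C, hC⟩ := hWE
  have key := two_inertia_mult_model (L := L) W hq hA hΔ hc hσ hτ hqm
  rw [← hC] at key
  obtain ⟨Q, rfl⟩ := (psi (M := L) E C).surjective P
  have hQ : m • Q = 0 := by
    apply (psi (M := L) E C).injective
    rw [map_nsmul, hP, _root_.map_zero]
  have e := congrArg (psi (M := L) E C) (key Q hQ)
  rw [map_nsmul, map_sub, ← smul_psi, map_sub, ← smul_psi, _root_.map_zero] at e
  exact e

end Main

end Fermat.Agent.ERep
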