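import Fermat.Agent.FrobE.Qbar

/-!
# Characteristic equation of Frobenius up to a factor two, for torsion of arbitrary order
-/

set_option autoImplicit false

namespace Fermat.Agent.ERep

open WeierstrassCurve WeierstrassCurve.Affine WeierstrassCurve.Affine.Point
open Fermat.Agent.EC Fermat.Agent.FrobE Fermat.Agent.FrobChar

section

variable {F : Type*} [Field F] [Fintype F] {M : Type*} [Field M] [Algebra F M] [DecidableEq M]

/-- Frobenius satisfies its characteristic equation up to a factor 2. -/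
theorem two_char_eq (W : Affine F) [WeierstrassCurve.IsElliptic W] (h2 : (2 : F) ≠ 0)
    [Algebra.IsAlgebraic F M] (P : (W⁄M).Point) :
    (2 : ℤ) • (frobPt W (frobPt W P) -
      ((Fintype.card F : ℤ) + 1 - (Nat.card W.Point : ℤ)) • frobPt W P +
        (Fintype.card F : ℤ) • P) = 0 := by
  let C : VariableChange F := ⟨1, 0, -W.a₁ / 2, -W.a₃ / 2⟩
  obtain ⟨Q, rfl⟩ := (psi (M := M) W C).surjective P
  have key := FrobChar.frobenius_char_eq (C • W : WeierstrassCurve F) (by
      change ((1 : Fˣ)⁻¹ : Fˣ) * (W.a₁ + 2 * (-W.a₁ / 2)) = 0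
      rw [mul_div_cancel₀ _ h2]; ring) (by
      change (((1 : Fˣ)⁻¹ : Fˣ) : F) ^ 3 * (W.a₃ + 0 * W.a₁ + 2 * (-W.a₃ / 2)) = 0
      rw [mul_div_cancel₀ _ h2]; ring) h2 Q
  have e := congrArg (psi (M := M) W C) key
  rw [map_zsmul, map_add, map_sub, map_zsmul, map_zsmul, _root_.map_zero, ← frobPt_psi,
    ← frobPt_psi, card_vc] at e
  exact e

end

variable {L : Type*} [Field L] [Algebra ℚ L] [DecidableEq L] {l : ℕ} {A : ValuationSubring L}

/-- up to 2, integral model -/
theorem two_frob_char_model [Algebra.IsAlgebraic ℚ L] (W : WeierstrassCurve ℤ) (hl : l.Prime)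
    (hl2 : l ≠ 2)
    (hW : W.IsGoodPrimeFor l) (hA : A.LiesOverPrime l) {σ : L ≃ₐ[ℚ] L} (hσ : A.IsFrobeniusAt σ l)
    {n : ℕ} (hnl : ¬ l ∣ n) (P : ((W.map (Int.castRingHom ℚ))⁄L).Point)
    (hP : n • P = 0) :
    (2 : ℤ) • (σ • σ • P - W.apOfModel l • (σ • P) + (l : ℤ) • P) = 0 := by
  have : Fact l.Prime := ⟨hl⟩
  have := charP_residue hl hA
  let : Algebra (ZMod l) (IsLocalRing.ResidueField A) := ZMod.algebra _ l
  have := algebraic_residue hl hA
  classical
  have hΔ0 : (W.reductionMod l).Δ ≠ 0 := by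
    rw [reductionMod, WeierstrassCurve.map_Δ, eq_intCast]
    intro h
    rw [ZMod.intCast_zmod_eq_zero_iff_dvd] at h
    exact hW h
  have hΔ : ((W.reductionMod l)⁄(IsLocalRing.ResidueField A)).Δ ≠ 0 := by
    have : ((W.reductionMod l)⁄(IsLocalRing.ResidueField A)).Δ =
      algebraMap _ (IsLocalRing.ResidueField A) (W.reductionMod l).Δ := WeierstrassCurve.map_Δ _ _
    rw [this]
    exact (map_ne_zero _).mpr hΔ0
  let r := redHom valuation_lt_one_iff_residue (isRed_int (A := A) (l := l) W) hΔ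
  have hr : ∀ P, r (σ • P) = frobPt (W.reductionMod l).toAffine (r P) := redFun_frob W hΔ hσ
  have hsm : ∀ (m : ℕ) (P : ((W.map (Int.castRingHom ℚ))⁄L).Point), m • (σ • P) = σ • (m • P) := by
    intro m P
    exact (map_nsmul (Point.map σ.toAlgHom) m P).symm
  apply eq_zero_of_redHom valuation_lt_one_iff_residue (isRed_int (A := A) (l := l) W) hΔ
    (val_nat_eq_one hl hA hnl)
  · have h0 : σ • (0 : ((W.map (Int.castRingHom ℚ))⁄L).Point) = 0 := rfl
    have h1 : n • (σ • σ • P) = 0 := by rw [hsm, hsm, hP, h0, h0]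
    have h2 : ∀ a : ℤ, n • (a • (σ • P)) = 0 := by
      intro a
      rw [← natCast_zsmul, smul_comm (n : ℤ) a, natCast_zsmul, hsm, hP, h0, smul_zero]
    have h3 : n • ((l : ℤ) • P) = 0 := by
      rw [← natCast_zsmul, smul_comm (n : ℤ) (l : ℤ), natCast_zsmul P n, hP, smul_zero]
    rw [← natCast_zsmul, smul_comm (n : ℤ) (2 : ℤ), natCast_zsmul, nsmul_add, nsmul_sub, h1, h2,
      h3, sub_zero, add_zero, smul_zero]
  · change r _ = 0
    rw [map_zsmul, map_add, map_sub, map_zsmul, map_zsmul, hr, hr]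
    haveI : WeierstrassCurve.IsElliptic (W.reductionMod l) := ⟨isUnit_iff_ne_zero.mpr hΔ0⟩
    have h2 : (2 : ZMod l) ≠ 0 := by
      intro h
      have : ((2 : ℕ) : ZMod l) = 0 := by exact_mod_cast h
      rw [ZMod.natCast_eq_zero_iff] at this
      exact hl2 ((Nat.prime_dvd_prime_iff_eq Fact.out Nat.prime_two).mp this)
    have := two_char_eq (W.reductionMod l).toAffine h2 (r P)
    rw [apOfModel, traceOfFrobenius, card, Nat.card_zmod]
    rwa [ZMod.card] at this

/-- **Frobenius elements satisfy the characteristic equation** on torsion points (up to 2). -/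
theorem two_frob_char [Algebra.IsAlgebraic ℚ L] (E : WeierstrassCurve ℚ) {W : WeierstrassCurve ℤ}
    (hWE : W.IsIntegralModelOf E) (hl : l.Prime) (hl2 : l ≠ 2)
    (hW : W.IsGoodPrimeFor l) (hA : A.LiesOverPrime l) {σ : L ≃ₐ[ℚ] L} (hσ : A.IsFrobeniusAt σ l)
    {n : ℕ} (hnl : ¬ l ∣ n) (P : (E⁄L).Point) (hP : n • P = 0) :
    (2 : ℤ) • (σ • σ • P - W.apOfModel l • (σ • P) + (l : ℤ) • P) = 0 := by
  obtain ⟨C, hC⟩ := hWE
  have key := two_frob_char_model (L := L) W hl hl2 hW hA hσ hnl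
  rw [← hC] at key
  obtain ⟨Q, rfl⟩ := (psi (M := L) E C).surjective P
  have hQ : n • Q = 0 := by
    apply (psi (M := L) E C).injective
    rw [map_nsmul, hP, _root_.map_zero]
  have e := congrArg (psi (M := L) E C) (key Q hQ)
  rw [map_zsmul, map_add, map_sub, map_zsmul, map_zsmul, _root_.map_zero, ← smul_psi,
    ← smul_psi] at e
  exact e

/-- uniform version up to 2 -/
theorem frob_char_two [Algebra.IsAlgebraic ℚ L] (E : WeierstrassCurve ℚ) {W : WeierstrassCurve ℤ}
    (hWE : W.IsIntegralModelOf E) (hl : l.Prime)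
    (hW : W.IsGoodPrimeFor l) (hA : A.LiesOverPrime l) {σ : L ≃ₐ[ℚ] L} (hσ : A.IsFrobeniusAt σ l)
    {n : ℕ} (hnl : ¬ l ∣ n) (P : (E⁄L).Point) (hP : n • P = 0) :
    (2 : ℤ) • (σ • σ • P - W.apOfModel l • (σ • P) + (l : ℤ) • P) = 0 := by
  rcases eq_or_ne l 2 with rfl | hl2
  · have hn : Odd n := by
      rw [← Nat.not_even_iff_odd]
      exact fun h => hnl h.two_dvd
    rw [frob_char E hWE hl hW hA hσ hn hnl P hP, smul_zero]
  · exact two_frob_char E hWE hl hl2 hW hA hσ hnl P hP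

end Fermat.Agent.ERep
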