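import Fermat.Agent.QuadRep.Relation
import Mathlib.LinearAlgebra.Charpoly.ToMatrix
import Mathlib.LinearAlgebra.Matrix.Charpoly.Coeff

/-!
# Rank two: from an annihilating quadratic relation to the characteristic polynomial
-/

set_option autoImplicit false

namespace Fermat.Agent.ERep

open Polynomial Matrix

section Mat

variable {R : Type*} [CommRing R] [IsDomain R]

theorem charpoly_eq_of_trace_det (A : Matrix (Fin 2) (Fin 2) R) {t d : R} (ht : A.trace = t)
    (hd : A.det = d) : A.charpoly = X ^ 2 - C t * X + C d := by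
  rw [Matrix.charpoly_fin_two, ht, hd]

/-- a non-scalar matrix annihilated by `X² - tX + d` has this characteristic polynomial -/
theorem trace_det_of_not_scalar (A : Matrix (Fin 2) (Fin 2) R) {t d : R}
    (h : A * A - t • A + d • (1 : Matrix (Fin 2) (Fin 2) R) = 0)
    (hA : ¬ ∃ c : R, A = c • (1 : Matrix (Fin 2) (Fin 2) R)) : A.trace = t ∧ A.det = d := by
  have h00 := congrFun (congrFun h 0) 0
  have h01 := congrFun (congrFun h 0) 1
  have h10 := congrFun (congrFun h 1) 0
  have h11 := congrFun (congrFun h 1) 1
  simp only [Matrix.add_apply, Matrix.sub_apply, Matrix.smul_apply, Matrix.mul_apply,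
    Fin.sum_univ_two, Matrix.zero_apply, smul_eq_mul, Matrix.one_apply_eq, mul_one] at h00 h11
  simp only [Matrix.add_apply, Matrix.sub_apply, Matrix.smul_apply, Matrix.mul_apply,
    Fin.sum_univ_two, Matrix.zero_apply, smul_eq_mul,
    Matrix.one_apply_ne (show (0 : Fin 2) ≠ 1 by decide), mul_zero, add_zero] at h01
  simp only [Matrix.add_apply, Matrix.sub_apply, Matrix.smul_apply, Matrix.mul_apply,
    Fin.sum_univ_two, Matrix.zero_apply, smul_eq_mul,
    Matrix.one_apply_ne (show (1 : Fin 2) ≠ 0 by decide), mul_zero, add_zero] at h10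
  have htr : A 0 0 + A 1 1 = t := by
    by_contra hne
    have hne' : A 0 0 + A 1 1 - t ≠ 0 := sub_ne_zero.mpr hne
    apply hA
    have e1 : A 0 1 = 0 := by
      have : (A 0 0 + A 1 1 - t) * A 0 1 = 0 := by linear_combination h01
      exact (mul_eq_zero.mp this).resolve_left hne'
    have e2 : A 1 0 = 0 := by
      have : (A 0 0 + A 1 1 - t) * A 1 0 = 0 := by linear_combination h10
      exact (mul_eq_zero.mp this).resolve_left hne'
    have e3 : A 0 0 = A 1 1 := by
      have : (A 0 0 + A 1 1 - t) * (A 0 0 - A 1 1) = 0 := by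
        linear_combination h00 - h11
      exact sub_eq_zero.mp ((mul_eq_zero.mp this).resolve_left hne')
    refine ⟨A 0 0, ?_⟩
    ext i j
    fin_cases i <;> fin_cases j <;> simp [e1, e2, e3]
  refine ⟨by rw [Matrix.trace_fin_two, htr], ?_⟩
  rw [Matrix.det_fin_two]
  linear_combination h00 * (-1) + A 0 0 * htr

end Mat

section Rep

variable {R V : Type*} [CommRing R] [IsDomain R] [AddCommGroup V] [Module R V]
  [Module.Free R V] [Module.Finite R V] {Gr : Type*} [Group Gr]

/-- trace and determinant from a quadratic relation on a module of rank 2 -/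
theorem trace_det_end_of_not_scalar (hV : Module.finrank R V = 2) (f : Module.End R V) {t d : R}
    (h : f * f - t • f + d • (1 : Module.End R V) = 0)
    (hf : ¬ ∃ c : R, f = c • (1 : Module.End R V)) :
    LinearMap.trace R V f = t ∧ LinearMap.det f = d := by
  let b : Module.Basis (Fin 2) R V := Module.finBasisOfFinrankEq R V hV
  have key := trace_det_of_not_scalar (LinearMap.toMatrixAlgEquiv b f) (t := t) (d := d) (by
      have := congrArg (LinearMap.toMatrixAlgEquiv b) h
      simpa only [map_add, map_sub, map_mul, map_smul, map_one, map_zero] using this) (by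
      rintro ⟨c, hc⟩
      apply hf
      refine ⟨c, (LinearMap.toMatrixAlgEquiv b).injective ?_⟩
      rw [map_smul, map_one, hc])
  constructor
  · rw [LinearMap.trace_eq_matrix_trace R b]
    exact key.1
  · rw [← LinearMap.det_toMatrix b]
    exact key.2

/-- **Characteristic polynomials from annihilating relations**: for a group acting on a module of
rank `2` not through scalars. -/
theorem trace_det_of_relation (hV : Module.finrank R V = 2) (ρ : Gr →* Module.End R V)
    (t d : Gr → R) (hd : ∀ a b, d (a * b) = d a * d b) (hd0 : ∀ a, d a ≠ 0)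
    (h : ∀ g, ρ g * ρ g - t g • ρ g + d g • (1 : Module.End R V) = 0)
    (hns : ∃ g, ¬ ∃ c : R, ρ g = c • (1 : Module.End R V)) (g : Gr) :
    LinearMap.trace R V (ρ g) = t g ∧ LinearMap.det (ρ g) = d g := by
  by_cases hg : ∃ c : R, ρ g = c • (1 : Module.End R V)
  · obtain ⟨c, hc⟩ := hg
    obtain ⟨τ, hτ⟩ := hns
    have h1 := trace_det_end_of_not_scalar hV (ρ τ) (h τ) hτ
    have hnt : Nontrivial V := Module.nontrivial_of_finrank_pos (R := R) (by rw [hV]; norm_num)
    have hgu : ρ g * ρ g⁻¹ = 1 := by rw [← map_mul, mul_inv_cancel, map_one]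
    have hc0 : c ≠ 0 := by
      rintro rfl
      rw [hc, zero_smul, zero_mul] at hgu
      exact zero_ne_one hgu
    have hgτ : ¬ ∃ e : R, ρ (g * τ) = e • (1 : Module.End R V) := by
      rintro ⟨e, he⟩
      apply hτ
      -- `ρ τ = ρ g⁻¹ * e`
      have hcu : IsUnit c := by
        have h2 : LinearMap.det (ρ g) * LinearMap.det (ρ g⁻¹) = 1 := by
          rw [← map_mul, hgu, map_one]
        rw [hc, LinearMap.det_smul, map_one, mul_one, hV] at h2
        exact (isUnit_pow_iff two_ne_zero).mp (IsUnit.of_mul_eq_one _ h2)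
      obtain ⟨u, rfl⟩ := hcu
      refine ⟨(u⁻¹ : Rˣ) * e, ?_⟩
      rw [map_mul, hc, smul_one_mul] at he
      rw [mul_smul, ← he, smul_smul, Units.inv_mul, one_smul]
    have h2 := trace_det_end_of_not_scalar hV (ρ (g * τ)) (h (g * τ)) hgτ
    have hdet : LinearMap.det (ρ g) = d g := by
      have h3 := h2.2
      rw [map_mul, map_mul, h1.2, hd] at h3
      exact mul_right_cancel₀ (hd0 τ) h3
    refine ⟨?_, hdet⟩
    have hdet' : c ^ 2 = d g := by
      rw [← hdet, hc, LinearMap.det_smul, map_one, mul_one, hV]
    have htr : LinearMap.trace R V (ρ g) = 2 * c := by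
      rw [hc, map_smul, LinearMap.trace_one, hV, smul_eq_mul]
      push_cast; ring
    rw [htr]
    have h4 := h g
    rw [hc, smul_mul_smul_comm, one_mul, smul_smul, ← sub_smul, ← add_smul] at h4
    obtain ⟨v, hv⟩ := exists_ne (0 : V)
    have h5 := congrArg (fun f : Module.End R V => f v) h4
    simp only [LinearMap.smul_apply, Module.End.one_apply, LinearMap.zero_apply] at h5
    have h6 : c * c - t g * c + d g = 0 := by
      exact (smul_eq_zero.mp h5).resolve_right hv
    rw [← hdet'] at h6
    have h7 : c * (2 * c - t g) = 0 := by linear_combination h6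
    exact sub_eq_zero.mp ((mul_eq_zero.mp h7).resolve_left hc0)
  · exact trace_det_end_of_not_scalar hV (ρ g) (h g) hg

/-- characteristic polynomial of an endomorphism of a module of rank 2 -/
theorem charpoly_of_trace_det (hV : Module.finrank R V = 2) (f : Module.End R V) {t d : R}
    (ht : LinearMap.trace R V f = t) (hd : LinearMap.det f = d) :
    f.charpoly = X ^ 2 - C t * X + C d := by
  let b : Module.Basis (Fin 2) R V := Module.finBasisOfFinrankEq R V hV
  rw [← LinearMap.charpoly_toMatrix f b]
  refine charpoly_eq_of_trace_det _ ?_ ?_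
  · rw [← ht, LinearMap.trace_eq_matrix_trace R b]
  · rw [← hd, ← LinearMap.det_toMatrix b]

end Rep

end Fermat.Agent.ERep
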