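import Fermat.Agent.ERep.TateMod
import Fermat.Agent.ERep.EvenTors
import Fermat.Agent.ERep.FrobTwo
import Fermat.Agent.ERep.Quad2
import Fermat.Agent.WP.Torsion
import Fermat.Agent.QuadRep.Relation
import Fermat.Prelude.Def_GaloisRep_Adic

/-!
# The `p`-adic representation of an elliptic curve over `ℚ`
-/

set_option autoImplicit false

namespace Fermat.Agent.ERep

open WeierstrassCurve WeierstrassCurve.Affine WeierstrassCurve.Affine.Point
open Fermat.Agent.Tate

local notation "Qb" => AlgebraicClosure ℚ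
local notation "GQ" => AlgebraicClosure ℚ ≃ₐ[ℚ] AlgebraicClosure ℚ

section Tors

variable (E : WeierstrassCurve ℚ) [E.IsElliptic]

theorem card_torsionE {n : ℕ} (hn : 0 < n) : Nat.card {P : (E⁄Qb).Point // n • P = 0} = n ^ 2 := by
  have h := Fermat.Agent.WP.card_torsion (W' := E)
    (IsAlgClosed.lift : AlgebraicClosure ℚ →ₐ[ℚ] ℂ) hn
  exact h

variable (p : ℕ) [hp : Fact p.Prime]

theorem card_torE (n : ℕ) : Nat.card (tor p (E⁄Qb).Point n) = p ^ (2 * n) := by
  rw [mul_comm, pow_mul, ← card_torsionE E (pow_pos hp.out.pos n)]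
  exact Nat.card_congr (Equiv.subtypeEquivRight fun x => mem_tor p)

/-- chosen compatible bases of the `E[p ^ n]` -/
noncomputable def tb : TBasis p (E⁄Qb).Point := Classical.choice (exists_tBasis (card_torE E p))

/-- the representation on `T_p E` -/
noncomputable def repE : GQ →* Module.End ℤ_[p] (Fin 2 → ℤ_[p]) := (tb E p).rep GQ

theorem pr_repE (s : GQ) (n : ℕ) (v : Fin 2 → ℤ_[p]) :
    ((tb E p).pr n (repE E p s v) : (E⁄Qb).Point) = s • ((tb E p).pr n v : (E⁄Qb).Point) :=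
  (tb E p).pr_rep s n v

omit [E.IsElliptic] in
/-- coordinates of a point -/
theorem exists_level {S : Set (E⁄Qb).Point} (hS : S.Finite) :
    ∃ L : IntermediateField ℚ Qb, FiniteDimensional ℚ L ∧
      ∀ σ : GQ, (∀ x ∈ L, σ x = x) → ∀ P ∈ S, σ • P = P := by
  classical
  let xc : (E⁄Qb).Point → Qb := fun P => match P with
    | .zero => 0
    | .some x _ _ => x
  let yc : (E⁄Qb).Point → Qb := fun P => match P with
    | .zero => 0
    | .some _ y _ => y
  let T : Set Qb := xc '' S ∪ yc '' S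
  have hT : T.Finite := (hS.image xc).union (hS.image yc)
  have := hT.to_subtype
  refine ⟨IntermediateField.adjoin ℚ T, ?_, ?_⟩
  · exact IntermediateField.finiteDimensional_adjoin fun x _ =>
      (AlgebraicClosure.isAlgebraic ℚ).isIntegral.isIntegral x
  · intro σ hσ P hP
    rcases P with _ | ⟨x, y, n⟩
    · rfl
    · have hx : σ x = x := hσ x (IntermediateField.subset_adjoin ℚ T
        (Or.inl ⟨_, hP, rfl⟩))
      have hy : σ y = y := hσ y (IntermediateField.subset_adjoin ℚ T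
        (Or.inr ⟨_, hP, rfl⟩))
      have hσP : σ • (.some x y n : (E⁄Qb).Point) = .some (σ x) (σ y)
        ((E.toAffine.baseChange_nonsingular (f := σ.toAlgHom) σ.toAlgHom.injective ..).mpr n) := rfl
      rw [hσP]
      simp only [hx, hy]

theorem mem_smul_top {n : ℕ} {v : Fin 2 → ℤ_[p]} (h : (tb E p).pr n v = 0) :
    v ∈ (IsLocalRing.maximalIdeal ℤ_[p] ^ n) • (⊤ : Submodule ℤ_[p] (Fin 2 → ℤ_[p])) := by
  obtain ⟨w, rfl⟩ := ((tb E p).pr_eq_zero_iff n v).mp h
  refine Submodule.smul_mem_smul ?_ trivial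
  rw [PadicInt.maximalIdeal_eq_span_p]
  exact Ideal.pow_mem_pow (Ideal.mem_span_singleton_self _) n

theorem continuous_repE : GaloisActionIsAdicContinuous ℤ_[p] (repE E p) := by
  intro n
  have hfin : Finite (tor p (E⁄Qb).Point n) := card_tor_of (card_torE E p) n
  obtain ⟨L, hL, h⟩ := exists_level E (S := (tor p (E⁄Qb).Point n : Set (E⁄Qb).Point))
    (Set.toFinite _)
  refine ⟨L, hL, fun σ hσ v => mem_smul_top E p ?_⟩
  apply Subtype.ext
  rw [map_sub, AddSubgroup.coe_sub, pr_repE, h σ hσ _ ((tb E p).pr n v).2, sub_self]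
  rfl

/-- the `p`-adic Galois representation of `E` -/
noncomputable def adicE : GaloisRepAdic ℤ_[p] where
  V := Fin 2 → ℤ_[p]
  finrank_eq := by rw [Module.finrank_fin_fun]
  ρ := repE E p
  isAdicContinuous := continuous_repE E p

/-- `2 v = 0` implies `v = 0` in the Tate module. -/
theorem two_smul_eq_zero {v : Fin 2 → ℤ_[p]} (h : (2 : ℤ) • v = 0) : v = 0 := by
  funext i
  have h1 : (2 : ℤ) • v i = 0 := congrFun h i
  rw [zsmul_eq_mul] at h1
  exact (mul_eq_zero.mp h1).resolve_left (by norm_num)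

omit [E.IsElliptic] in
theorem not_dvd_pow {q : ℕ} (hq : q.Prime) (hqp : q ≠ p) (n : ℕ) : ¬ q ∣ p ^ n := fun h =>
  hqp ((Nat.prime_dvd_prime_iff_eq hq hp.out).mp (hq.dvd_of_dvd_pow h))

end Tors

section Local

variable (E : WeierstrassCurve ℚ) [E.IsElliptic] (p : ℕ) [hp : Fact p.Prime]
  {W : WeierstrassCurve ℤ} (hWE : W.IsIntegralModelOf E)
  {A : ValuationSubring Qb} {q : ℕ} (hq : q.Prime) (hA : A.LiesOverPrime q) (hqp : q ≠ p)

include hWE hq hA hqp

theorem repE_frob (hW : W.IsGoodPrimeFor q) {σ : GQ} (hσ : A.IsFrobeniusAt σ q) :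
    repE E p σ ^ 2 - ((W.apOfModel q : ℤ) : ℤ_[p]) • repE E p σ +
      (q : ℤ_[p]) • (1 : Module.End ℤ_[p] (Fin 2 → ℤ_[p])) = 0 := by
  refine LinearMap.ext fun v => two_smul_eq_zero p ?_
  refine (tb E p).ext_pr fun n => ?_
  have h := frob_char_two E hWE hq hW hA hσ (not_dvd_pow p hq hqp n)
    ((tb E p).pr n v : (E⁄Qb).Point) ((mem_tor p).mp ((tb E p).pr n v).2)
  have e : (2 : ℤ) • ((repE E p σ ^ 2 - ((W.apOfModel q : ℤ) : ℤ_[p]) • repE E p σ +
      (q : ℤ_[p]) • (1 : Module.End ℤ_[p] (Fin 2 → ℤ_[p]))) v) =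
      (2 : ℤ) • (repE E p σ (repE E p σ v) - (W.apOfModel q : ℤ) • (repE E p σ v) +
        (q : ℤ) • v) := by
    rw [LinearMap.add_apply, LinearMap.sub_apply, LinearMap.smul_apply, LinearMap.smul_apply,
      Module.End.one_apply, pow_two, Module.End.mul_apply, Int.cast_smul_eq_zsmul,
      Nat.cast_smul_eq_nsmul, natCast_zsmul]
  rw [e, map_zsmul, map_add, map_sub, map_zsmul, map_zsmul, AddSubgroup.coe_zsmul,
    AddSubgroup.coe_add, AddSubgroup.coe_sub, AddSubgroup.coe_zsmul, AddSubgroup.coe_zsmul,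
    pr_repE, pr_repE, h, _root_.map_zero]
  rfl

theorem repE_inertia_good (hW : W.IsGoodPrimeFor q) {σ : GQ} (hσ : σ ∈ A.inertiaSubgroupIn ℚ) :
    repE E p σ = 1 := by
  refine LinearMap.ext fun v => (tb E p).ext_pr fun n => ?_
  rw [pr_repE, Module.End.one_apply]
  exact inertia_good E hWE hq hA hW hσ (not_dvd_pow p hq hqp n) _
    ((mem_tor p).mp ((tb E p).pr n v).2)

theorem repE_inertia_mult (hΔ : (q : ℤ) ∣ W.Δ) (hc : ¬ (q : ℤ) ∣ W.c₄) {σ τ : GQ}
    (hσ : σ ∈ A.inertiaSubgroupIn ℚ) (hτ : τ ∈ A.inertiaSubgroupIn ℚ) :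
    (repE E p τ - 1) * (repE E p σ - 1) = 0 := by
  refine LinearMap.ext fun v => two_smul_eq_zero p ?_
  refine (tb E p).ext_pr fun n => ?_
  have h := two_inertia_mult E hWE hq hA hΔ hc hσ hτ (not_dvd_pow p hq hqp n)
    ((tb E p).pr n v : (E⁄Qb).Point) ((mem_tor p).mp ((tb E p).pr n v).2)
  have e : (2 : ℤ) • (((repE E p τ - 1) * (repE E p σ - 1)) v) =
      (2 : ℤ) • (repE E p τ (repE E p σ v - v) - (repE E p σ v - v)) := by
    rw [Module.End.mul_apply, LinearMap.sub_apply, LinearMap.sub_apply, Module.End.one_apply,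
      Module.End.one_apply]
  rw [e, map_zsmul, AddSubgroup.coe_zsmul, map_sub, AddSubgroup.coe_sub, pr_repE, map_sub,
    AddSubgroup.coe_sub, pr_repE, _root_.map_zero]
  rw [← natCast_zsmul] at h
  exact h

end Local

section Relation

variable (E : WeierstrassCurve ℚ) [E.IsElliptic] (p : ℕ) [hp : Fact p.Prime]

theorem p_mem : (p : ℤ_[p]) ∈ IsLocalRing.maximalIdeal ℤ_[p] := by
  rw [PadicInt.maximalIdeal_eq_span_p]
  exact Ideal.mem_span_singleton_self _

/-- the cyclotomic character -/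
noncomputable abbrev cycE : GQ →* ℤ_[p] := Fermat.Agent.QuadRep.cyc p ℤ_[p] (p_mem p)

end Relation

end Fermat.Agent.ERep
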