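import Fermat.Agent.ERep.Node

/-!
# Existence of the critical point for multiplicative reduction, Galois invariance
-/

set_option autoImplicit false

namespace Fermat.Agent.ERep

open WeierstrassCurve WeierstrassCurve.Affine WeierstrassCurve.Affine.Point
open Fermat.Agent.EC

section Exists

variable {K Γ₀ : Type*} [Field K] [LinearOrderedCommGroupWithZero Γ₀] {v : Valuation K Γ₀}
  {W : Affine K}

lemma Crit.s_eq {x₀ y₀ α β : K} (h : Crit v W x₀ y₀ α β) : (β - α) ^ 2 = W.b₂ + 12 * x₀ := by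
  have h1 := h.sum
  have h2 := h.prod
  rw [b₂]
  linear_combination (α + β - W.a₁) * h1 - 4 * h2

lemma Crit.h_eq {x₀ y₀ α β : K} (h : Crit v W x₀ y₀ α β) :
    6 * x₀ ^ 2 + W.b₂ * x₀ + W.b₄ = 0 := by
  have h1 := h.dx
  have h2 := h.dy
  rw [b₂, b₄]
  linear_combination (-2) * h1 + W.a₁ * h2

/-- From the value of `F₀` at a critical point to the full data. -/
theorem crit_of [IsAlgClosed K] [CharZero K] (hW : IsInt v W) {x₀ y₀ : K} (hx : v x₀ ≤ 1)
    (hy : v y₀ ≤ 1) (dy : 2 * y₀ + W.a₁ * x₀ + W.a₃ = 0)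
    (dx : W.a₁ * y₀ = 3 * x₀ ^ 2 + 2 * W.a₂ * x₀ + W.a₄)
    (hs : v (W.b₂ + 12 * x₀) = 1) (hF : v (F₀ W x₀ y₀) < 1) :
    ∃ α β : K, Crit v W x₀ y₀ α β := by
  obtain ⟨t, ht⟩ := IsAlgClosed.exists_pow_nat_eq (W.b₂ + 12 * x₀) (n := 2) two_pos
  have ht1 : v t = 1 := by
    have h1 : v t ^ 2 = 1 := by rw [← map_pow, ht, hs]
    exact (pow_eq_one_iff_of_nonneg zero_le two_ne_zero).mp h1
  have h2 : (2 : K) ≠ 0 := two_ne_zero
  have hsum : (-W.a₁ - t) / 2 + (-W.a₁ + t) / 2 = -W.a₁ := by field_simp; ring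
  have hprod : (-W.a₁ - t) / 2 * ((-W.a₁ + t) / 2) = -(W.a₂ + 3 * x₀) := by
    have h3 : (-W.a₁ - t) / 2 * ((-W.a₁ + t) / 2) = (W.a₁ ^ 2 - t ^ 2) / 4 := by
      field_simp; ring
    rw [h3, ht, b₂]
    have h4 : (4 : K) ≠ 0 := by norm_num
    field_simp; ring
  have hs1 : v ((-W.a₁ - t) / 2 + (-W.a₁ + t) / 2) ≤ 1 := by
    rw [hsum, Valuation.map_neg]; exact hW.a₁
  have hp1 : v ((-W.a₁ - t) / 2 * ((-W.a₁ + t) / 2)) ≤ 1 ^ 2 := by
    rw [hprod, Valuation.map_neg, one_pow]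
    exact im (add_mem (mi hW.a₂) (mul_mem (natCast_mem_integer v 3) (mi hx)))
  have hint1 := val_le_of_sum_prod_le v hs1 hp1
  have hint2 : v ((-W.a₁ + t) / 2) ≤ 1 := by
    refine val_le_of_sum_prod_le v (b := (-W.a₁ - t) / 2) ?_ ?_
    · rw [add_comm]; exact hs1
    · rw [mul_comm]; exact hp1
  refine ⟨(-W.a₁ - t) / 2, (-W.a₁ + t) / 2, ⟨hW, hx, hy, hint1, hint2, hsum, hprod, ?_, dy, dx,
    hF⟩⟩
  have : (-W.a₁ + t) / 2 - (-W.a₁ - t) / 2 = t := by field_simp; ring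
  rw [this, ht1]

lemma F₀_formula {x₀ y₀ : K} (dy : 2 * y₀ + W.a₁ * x₀ + W.a₃ = 0) :
    4 * F₀ W x₀ y₀ = -(4 * x₀ ^ 3 + W.b₂ * x₀ ^ 2 + 2 * W.b₄ * x₀ + W.b₆) := by
  rw [F₀, b₂, b₄, b₆]
  linear_combination (2 * y₀ + W.a₁ * x₀ + W.a₃) * dy

/-- `864 F₀ = c₆ + s³`, where `s = b₂ + 12 x₀`. -/
lemma F₀_c₆ [CharZero K] {x₀ y₀ : K} (dy : 2 * y₀ + W.a₁ * x₀ + W.a₃ = 0)
    (hh : 6 * x₀ ^ 2 + W.b₂ * x₀ + W.b₄ = 0) :
    864 * F₀ W x₀ y₀ = W.c₆ + (W.b₂ + 12 * x₀) ^ 3 := by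
  have h1 := F₀_formula dy
  rw [c₆]
  linear_combination 216 * h1 - (36 * W.b₂ + 432 * x₀) * hh

lemma F₀_Δ [CharZero K] {x₀ y₀ : K} (dy : 2 * y₀ + W.a₁ * x₀ + W.a₃ = 0)
    (hh : 6 * x₀ ^ 2 + W.b₂ * x₀ + W.b₄ = 0) :
    F₀ W x₀ y₀ * ((W.b₂ + 12 * x₀) ^ 3 - 432 * F₀ W x₀ y₀) = W.Δ := by
  have h1 := F₀_c₆ dy hh
  have h2 := W.c_relation
  have h3 : W.c₄ = (W.b₂ + 12 * x₀) ^ 2 := by
    rw [c₄]
    linear_combination (-24) * hh
  have h4 : (1728 : K) ≠ 0 := by norm_num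
  apply mul_left_cancel₀ h4
  rw [h2, h3]
  have h5 : W.c₆ = 864 * F₀ W x₀ y₀ - (W.b₂ + 12 * x₀) ^ 3 := by rw [h1]; ring
  rw [h5]
  ring

/-- Existence of the critical data for multiplicative reduction. -/
theorem exists_crit [IsAlgClosed K] [CharZero K] (hW : IsInt v W) (hΔ : v W.Δ < 1)
    (hc : v W.c₄ = 1) : ∃ x₀ y₀ α β : K, Crit v W x₀ y₀ α β := by
  obtain ⟨s, hs⟩ := IsAlgClosed.exists_pow_nat_eq W.c₄ (n := 2) two_pos
  have hs1 : v s = 1 := by
    have h1 : v s ^ 2 = 1 := by rw [← map_pow, hs, hc]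
    exact (pow_eq_one_iff_of_nonneg zero_le two_ne_zero).mp h1
  have hc4 : s ^ 2 = W.b₂ ^ 2 - 24 * W.b₄ := by rw [hs, c₄]
  -- choose the sign of `s`
  have hn : ∀ n : ℕ, v ((n : ℕ) : K) ≤ 1 := natCast_mem_integer v
  have h6 : v (6 : K) ≤ 1 := hn 6
  suffices H : ∃ s : K, s ^ 2 = W.b₂ ^ 2 - 24 * W.b₄ ∧ v s = 1 ∧ v ((s - W.b₂) / 12) ≤ 1 ∧
      (v (6 : K) = 1 → v (s ^ 3 + W.c₆) < 1) by
    obtain ⟨s, hs2, hs1, hx, hc6⟩ := H
    set x₀ := (s - W.b₂) / 12 with hx₀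
    have hsx : W.b₂ + 12 * x₀ = s := by
      have : (12 : K) ≠ 0 := by norm_num
      rw [hx₀]; field_simp; ring
    have hh : 6 * x₀ ^ 2 + W.b₂ * x₀ + W.b₄ = 0 := by
      have h24 : (24 : K) ≠ 0 := by norm_num
      apply mul_left_cancel₀ h24
      have : s ^ 2 = (W.b₂ + 12 * x₀) ^ 2 := by rw [hsx]
      linear_combination (-1) * this + hs2
    set y₀ := -(W.a₁ * x₀ + W.a₃) / 2 with hy₀
    have dy : 2 * y₀ + W.a₁ * x₀ + W.a₃ = 0 := by
      rw [hy₀]; field_simp; ring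
    have dx : W.a₁ * y₀ = 3 * x₀ ^ 2 + 2 * W.a₂ * x₀ + W.a₄ := by
      have h2 : (2 : K) ≠ 0 := two_ne_zero
      apply mul_left_cancel₀ h2
      rw [b₂, b₄] at hh
      linear_combination W.a₁ * dy - hh
    have hy : v y₀ ≤ 1 := by
      rcases lt_or_eq_of_le (hn 2) with h2 | h2
      · have hb2 : v W.b₂ = 1 := by
          have : W.b₂ = s - 12 * x₀ := by rw [← hsx]; ring
          rw [this, v.map_sub_eq_of_lt_left, hs1]
          rw [hs1]
          have e : (12 : K) * x₀ = ((2 : ℕ) : K) * ((6 : ℕ) * x₀) := by push_cast; ring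
          rw [e]
          exact mul_lt h2 (im (mul_mem (mi (hn 6)) (mi hx)))
        have ha1 : v W.a₁ = 1 := by
          refine le_antisymm hW.a₁ ?_
          by_contra hcon
          rw [not_le] at hcon
          have h3 : v W.b₂ < 1 := by
            have e : W.b₂ = W.a₁ * W.a₁ + ((2 : ℕ) : K) * ((2 : ℕ) * W.a₂) := by
              rw [b₂]; push_cast; ring
            rw [e]
            exact add_lt (mul_lt hcon hW.a₁) (mul_lt h2 (im (mul_mem (mi (hn 2)) (mi hW.a₂))))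
          rw [hb2] at h3
          exact lt_irrefl _ h3
        have h3 : v (W.a₁ * y₀) ≤ 1 := by
          rw [dx]
          exact im (add_mem (add_mem (mul_mem (natCast_mem_integer v 3) (pow_mem (mi hx) 2))
            (mul_mem (mul_mem (natCast_mem_integer v 2) (mi hW.a₂)) (mi hx))) (mi hW.a₄))
        rwa [map_mul, ha1, one_mul] at h3
      · have h3 : v (2 * y₀) ≤ 1 := by
          have : 2 * y₀ = -(W.a₁ * x₀ + W.a₃) := by linear_combination dy
          rw [this, Valuation.map_neg]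
          exact im (add_mem (mul_mem (mi hW.a₁) (mi hx)) (mi hW.a₃))
        have h4 : v (2 : K) = 1 := by exact_mod_cast h2
        rwa [map_mul, h4, one_mul] at h3
    have hFi : v (F₀ W x₀ y₀) ≤ 1 := by
      have := add_mem (add_mem (pow_mem (mi hy) 2) (mul_mem (mul_mem (mi hW.a₁) (mi hx)) (mi hy)))
        (mul_mem (mi hW.a₃) (mi hy))
      have h3 := add_mem (add_mem (add_mem (pow_mem (mi hx) 3)
        (mul_mem (mi hW.a₂) (pow_mem (mi hx) 2))) (mul_mem (mi hW.a₄) (mi hx))) (mi hW.a₆)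
      exact im (sub_mem this h3)
    have hF : v (F₀ W x₀ y₀) < 1 := by
      rcases lt_or_eq_of_le h6 with h6 | h6
      · have h1 := F₀_Δ dy hh
        rw [hsx] at h1
        have h2 : v (s ^ 3 - 432 * F₀ W x₀ y₀) = 1 := by
          have e : (432 : K) * F₀ W x₀ y₀ = 6 * (((72 : ℕ) : K) * F₀ W x₀ y₀) := by
            push_cast; ring
          rw [v.map_sub_eq_of_lt_left, map_pow, hs1, one_pow]
          rw [map_pow, hs1, one_pow, e]
          exact mul_lt h6 (im (mul_mem (mi (hn 72)) (mi hFi)))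
        have h3 : v (F₀ W x₀ y₀ * (s ^ 3 - 432 * F₀ W x₀ y₀)) < 1 := by rw [h1]; exact hΔ
        rwa [map_mul, h2, mul_one] at h3
      · have h1 := F₀_c₆ dy hh
        rw [hsx] at h1
        have h23 : v (2 : K) * v (3 : K) = 1 := by
          rw [← map_mul]
          have : (2 : K) * 3 = 6 := by norm_num
          rw [this, h6]
        have h2 : v (2 : K) = 1 := by
          refine le_antisymm (hn 2) ?_
          rw [← h23]
          exact mul_le_of_le_one_right' (hn 3)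
        have h3 : v (3 : K) = 1 := by rwa [h2, one_mul] at h23
        have h864 : v (864 : K) = 1 := by
          have : (864 : K) = 2 ^ 5 * 3 ^ 3 := by norm_num
          rw [this, map_mul, map_pow, map_pow, h2, h3, one_pow, one_pow, one_mul]
        have h4 : v (864 * F₀ W x₀ y₀) < 1 := by
          rw [h1, add_comm]
          exact hc6 h6
        rwa [map_mul, h864, one_mul] at h4
    obtain ⟨α, β, h⟩ := crit_of hW hx hy dy dx (by rw [hsx, hs1]) hF
    exact ⟨x₀, y₀, α, β, h⟩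
  -- existence of the sign
  rcases lt_or_eq_of_le h6 with h6 | h6
  · -- residue characteristic 2 or 3
    have hsum : (s - W.b₂) / 12 + (-s - W.b₂) / 12 = -(W.b₂ / 6) := by field_simp; ring
    by_cases h1 : v ((s - W.b₂) / 12) ≤ 1
    · exact ⟨s, hc4, hs1, h1, fun h => absurd h h6.ne⟩
    · refine ⟨-s, by rw [neg_sq]; exact hc4, by rw [Valuation.map_neg]; exact hs1, ?_,
        fun h => absurd h h6.ne⟩
      rw [not_le] at h1
      by_contra h2
      rw [not_le] at h2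
      set r₁ := (s - W.b₂) / 12 with hr₁
      set r₂ := (-s - W.b₂) / 12 with hr₂
      have hp : 6 * (r₁ * r₂) = W.b₄ := by
        have e : 6 * (r₁ * r₂) = (W.b₂ ^ 2 - s ^ 2) / 24 := by
          rw [hr₁, hr₂]; field_simp; ring
        rw [e, hc4]
        field_simp; ring
      have hs' : 6 * (r₁ + r₂) = -W.b₂ := by
        rw [hr₁, hr₂]; field_simp; ring
      have hv1 : v (6 * (r₁ + r₂)) ≤ 1 := by
        rw [hs', Valuation.map_neg]; exact hW.b₂
      have hv2 : v (6 * (r₁ * r₂)) ≤ 1 := by rw [hp]; exact hW.b₄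
      -- `6 r₁² = -b₂ r₁ - b₄`
      have e1 : 6 * r₁ ^ 2 = -(W.b₂ * r₁ + W.b₄) := by
        rw [← hp]
        have : W.b₂ = -(6 * (r₁ + r₂)) := by rw [hs', neg_neg]
        rw [this]; ring
      have hb2 : v W.b₂ = 1 := by
        have h3 : v (W.b₂ ^ 2) = 1 := by
          have : W.b₂ ^ 2 = s ^ 2 + 6 * (((4 : ℕ) : K) * W.b₄) := by
            rw [hc4]; push_cast; ring
          rw [this, v.map_add_eq_of_lt_left, map_pow, hs1, one_pow]
          rw [map_pow, hs1, one_pow]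
          exact mul_lt h6 (im (mul_mem (mi (hn 4)) (mi hW.b₄)))
        rw [map_pow] at h3
        exact (pow_eq_one_iff_of_nonneg zero_le two_ne_zero).mp h3
      have key : ∀ r : K, 1 < v r → 6 * r ^ 2 = -(W.b₂ * r + W.b₄) → v 6 * v r = 1 := by
        intro r hr e
        have h3 : v (6 * r ^ 2) = v r := by
          have h5 : v (W.b₂ * r) = v r := by rw [map_mul, hb2, one_mul]
          rw [e, Valuation.map_neg, v.map_add_eq_of_lt_left, h5]
          rw [h5]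
          exact hW.b₄.trans_lt hr
        have h4 : v r ≠ 0 := (zero_lt_one.trans hr).ne'
        rw [map_mul, map_pow, sq, ← mul_assoc] at h3
        exact mul_right_cancel₀ h4 (h3.trans (one_mul _).symm)
      have k1 := key r₁ h1 e1
      have e2 : 6 * r₂ ^ 2 = -(W.b₂ * r₂ + W.b₄) := by
        rw [← hp]
        have : W.b₂ = -(6 * (r₁ + r₂)) := by rw [hs', neg_neg]
        rw [this]; ring
      have k2 := key r₂ h2 e2
      have k3 : v (6 * (6 * (r₁ * r₂))) = 1 := by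
        rw [map_mul, map_mul, map_mul]
        calc v 6 * (v 6 * (v r₁ * v r₂)) = (v 6 * v r₁) * (v 6 * v r₂) := by ac_rfl
          _ = 1 := by rw [k1, k2, one_mul]
      have k4 : v (6 * (6 * (r₁ * r₂))) < 1 := mul_lt h6 hv2
      rw [k3] at k4
      exact lt_irrefl _ k4
  · -- residue characteristic prime to 6
    have h23 : v (2 : K) * v (3 : K) = 1 := by
      rw [← map_mul]
      have : (2 : K) * 3 = 6 := by norm_num
      rw [this, h6]
    have h2 : v (2 : K) = 1 := by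
      refine le_antisymm (hn 2) ?_
      rw [← h23]
      exact mul_le_of_le_one_right' (hn 3)
    have h3 : v (3 : K) = 1 := by rwa [h2, one_mul] at h23
    have h12 : v (12 : K) = 1 := by
      have : (12 : K) = 2 ^ 2 * 3 := by norm_num
      rw [this, map_mul, map_pow, h2, h3, one_pow, one_mul]
    have hprod : (s ^ 3 + W.c₆) * (-(((-s) ^ 3) + W.c₆)) = 1728 * W.Δ := by
      rw [W.c_relation, ← hs]; ring
    have hlt : v ((s ^ 3 + W.c₆) * (-(((-s) ^ 3) + W.c₆))) < 1 := by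
      rw [hprod]
      exact mul_lt' (hn 1728) hΔ
    rw [map_mul, Valuation.map_neg] at hlt
    have hint : ∀ t : K, v t = 1 → v ((t - W.b₂) / 12) ≤ 1 := by
      intro t ht
      rw [map_div₀, h12, div_one]
      exact im (sub_mem (mi ht.le) (mi hW.b₂))
    by_cases h1 : v (s ^ 3 + W.c₆) < 1
    · exact ⟨s, hc4, hs1, hint s hs1, fun _ => h1⟩
    · refine ⟨-s, by rw [neg_sq]; exact hc4, by rw [Valuation.map_neg]; exact hs1,
        hint _ (by rw [Valuation.map_neg]; exact hs1), fun _ => ?_⟩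
      rw [not_lt] at h1
      by_contra h4
      rw [not_lt] at h4
      exact absurd hlt (not_lt.mpr (one_le_mul h1 h4))

end Exists

section Galois

variable {R S K Γ₀ : Type*} [CommRing R] [CommRing S] [Field K]
  [LinearOrderedCommGroupWithZero Γ₀] [Algebra R S] [Algebra R K] [Algebra S K]
  [IsScalarTower R S K] {v : Valuation K Γ₀} {W' : Affine R} {x₀ y₀ α β : K}

lemma smul_algebraMap (σ : K ≃ₐ[S] K) (a : R) : σ (algebraMap R K a) = algebraMap R K a := by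
  rw [IsScalarTower.algebraMap_apply R S K, AlgEquiv.commutes]

/-- The critical data are fixed by inertia. -/
theorem Crit.fixed [CharZero K] (h : Crit v (W'⁄K) x₀ y₀ α β) {σ : K ≃ₐ[S] K} (hσ : TrivMod v σ) :
    σ x₀ = x₀ ∧ σ y₀ = y₀ ∧ σ α = α ∧ σ β = β := by
  have c1 : σ (W'⁄K).a₁ = (W'⁄K).a₁ := smul_algebraMap σ W'.a₁
  have c2 : σ (W'⁄K).a₂ = (W'⁄K).a₂ := smul_algebraMap σ W'.a₂
  have c3 : σ (W'⁄K).a₃ = (W'⁄K).a₃ := smul_algebraMap σ W'.a₃
  have c4 : σ (W'⁄K).a₄ = (W'⁄K).a₄ := smul_algebraMap σ W'.a₄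
  have cb2 : σ (W'⁄K).b₂ = (W'⁄K).b₂ := by
    simp only [b₂, map_add, map_mul, map_pow, c1, c2, map_ofNat]
  have cb4 : σ (W'⁄K).b₄ = (W'⁄K).b₄ := by
    simp only [b₄, map_add, map_mul, c1, c3, c4, map_ofNat]
  have hx : σ x₀ = x₀ := by
    have e1 := h.h_eq
    have e2 := congrArg σ e1
    simp only [map_add, map_mul, map_pow, map_ofNat, _root_.map_zero, cb2, cb4] at e2
    have e3 : (σ x₀ - x₀) * (((W'⁄K).b₂ + 12 * x₀) + 6 * (σ x₀ - x₀)) = 0 := by
      linear_combination e2 - e1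
    rcases mul_eq_zero.mp e3 with e4 | e4
    · exact sub_eq_zero.mp e4
    · exfalso
      have h1 : v ((W'⁄K).b₂ + 12 * x₀) = 1 := by
        rw [← h.s_eq, map_pow, h.unit, one_pow]
      have h2 : v (6 * (σ x₀ - x₀)) < 1 :=
        mul_lt' (natCast_mem_integer v 6) (hσ.int x₀ h.x₀_le)
      have h3 := v.map_add_eq_of_lt_left (x := (W'⁄K).b₂ + 12 * x₀) (y := 6 * (σ x₀ - x₀))
        (by rw [h1]; exact h2)
      rw [e4, _root_.map_zero, h1] at h3
      exact zero_ne_one h3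
  have hy : σ y₀ = y₀ := by
    have e1 := h.dy
    have e2 := congrArg σ e1
    simp only [map_add, map_mul, map_ofNat, _root_.map_zero, c1, c3, hx] at e2
    have h2 : (2 : K) ≠ 0 := two_ne_zero
    apply mul_left_cancel₀ h2
    linear_combination e2 - e1
  have hroot : ∀ γ γ' : K, γ + γ' = -(W'⁄K).a₁ → γ * γ' = -((W'⁄K).a₂ + 3 * x₀) →
      v γ ≤ 1 → v (γ' - γ) = 1 → σ γ = γ := by
    intro γ γ' h1 h2 hγ hu
    have e1 : γ ^ 2 + (W'⁄K).a₁ * γ - ((W'⁄K).a₂ + 3 * x₀) = 0 := by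
      linear_combination γ * h1 - h2
    have e2 := congrArg σ e1
    simp only [map_add, map_sub, map_mul, map_pow, map_ofNat, _root_.map_zero, c1, c2, hx] at e2
    have e3 : (σ γ - γ) * ((σ γ - γ) - (γ' - γ)) = 0 := by
      linear_combination e2 - e1 - (σ γ - γ) * h1
    rcases mul_eq_zero.mp e3 with e4 | e4
    · exact sub_eq_zero.mp e4
    · exfalso
      have h3 : v (σ γ - γ) < 1 := hσ.int γ hγ
      rw [sub_eq_zero.mp e4, hu] at h3
      exact lt_irrefl _ h3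
  exact ⟨hx, hy, hroot α β h.sum h.prod h.α_le h.unit,
    hroot β α h.symm.sum h.symm.prod h.β_le h.symm.unit⟩

end Galois

end Fermat.Agent.ERep
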