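import Fermat.Agent.ERep.CritExists
import Fermat.Agent.FrobE.Qbar
import Fermat.Agent.ECP.Node

/-!
# Inertia on torsion points of elliptic curves over `ℚ`
-/

set_option autoImplicit false

namespace Fermat.Agent.ERep

open WeierstrassCurve WeierstrassCurve.Affine WeierstrassCurve.Affine.Point
open Fermat.Agent.EC

section

variable {K Γ₀ : Type*} [Field K] [LinearOrderedCommGroupWithZero Γ₀] {v : Valuation K Γ₀}

lemma val_int_eq_one {q : ℕ} (hq : q.Prime) (hvq : v (q : K) < 1) {n : ℤ} (hn : ¬ (q : ℤ) ∣ n) :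
    v (n : K) = 1 := by
  refine le_antisymm (val_intCast_le_one v n) ?_
  by_contra hlt
  rw [not_le] at hlt
  have hco : IsCoprime (q : ℤ) n :=
    (Int.prime_iff_natAbs_prime.mpr (by simpa using hq)).coprime_iff_not_dvd.mpr hn
  obtain ⟨s, t, h⟩ := hco
  have h1 : v ((s : K) * (q : K) + (t : K) * (n : K)) = 1 := by
    have : (s : K) * (q : K) + (t : K) * (n : K) = 1 := by
      exact_mod_cast congrArg (Int.cast : ℤ → K) h
    rw [this, _root_.map_one]
  have h2 : v ((s : K) * (q : K) + (t : K) * (n : K)) < 1 := by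
    refine (v.map_add _ _).trans_lt (max_lt ?_ ?_)
    · rw [map_mul]; exact lt_of_le_of_lt (mul_le_of_le_one_left' (val_intCast_le_one v s)) hvq
    · rw [map_mul]; exact lt_of_le_of_lt (mul_le_of_le_one_left' (val_intCast_le_one v t)) hlt
  exact absurd h1 h2.ne

lemma val_int_lt_one {q : ℕ} (hvq : v (q : K) < 1) {n : ℤ} (hn : (q : ℤ) ∣ n) :
    v (n : K) < 1 := by
  obtain ⟨m, rfl⟩ := hn
  push_cast
  rw [map_mul]
  exact lt_of_le_of_lt (mul_le_of_le_one_right' (val_intCast_le_one v m)) hvq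

end

section Model

variable (W : WeierstrassCurve ℤ) {L : Type*} [Field L] [Algebra ℚ L]
  {A : ValuationSubring L} {q : ℕ}

lemma cast_coeff (a : ℤ) : algebraMap ℚ L (Int.castRingHom ℚ a) = (a : L) := by
  rw [eq_intCast, map_intCast]

lemma isInt_model : IsInt A.valuation ((W.map (Int.castRingHom ℚ))⁄L).toAffine := by
  have h : ∀ a : ℤ, A.valuation (algebraMap ℚ L (Int.castRingHom ℚ a)) ≤ 1 := by
    intro a
    rw [cast_coeff]
    exact val_intCast_le_one _ a
  exact ⟨h _, h _, h _, h _, h _⟩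

lemma Δ_model : ((W.map (Int.castRingHom ℚ))⁄L).Δ = ((W.Δ : ℤ) : L) := by
  have h1 : ((W.map (Int.castRingHom ℚ))⁄L).Δ = algebraMap ℚ L (W.map (Int.castRingHom ℚ)).Δ :=
    WeierstrassCurve.map_Δ _ _
  rw [h1, WeierstrassCurve.map_Δ, cast_coeff]

lemma c₄_model : ((W.map (Int.castRingHom ℚ))⁄L).c₄ = ((W.c₄ : ℤ) : L) := by
  have h1 : ((W.map (Int.castRingHom ℚ))⁄L).c₄ =
      algebraMap ℚ L (W.map (Int.castRingHom ℚ)).c₄ := WeierstrassCurve.map_c₄ _ _
  rw [h1, WeierstrassCurve.map_c₄, cast_coeff]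

variable [DecidableEq L]

/-- inertia is unipotent on odd torsion at multiplicative primes (integral model) -/
theorem inertia_mult_model [IsAlgClosed L] [Algebra.IsAlgebraic ℚ L] (hq : q.Prime)
    (hA : A.LiesOverPrime q) (hΔ : (q : ℤ) ∣ W.Δ) (hc : ¬ (q : ℤ) ∣ W.c₄)
    {σ τ : L ≃ₐ[ℚ] L} (hσ : σ ∈ A.inertiaSubgroupIn ℚ) (hτ : τ ∈ A.inertiaSubgroupIn ℚ)
    {m : ℕ} (hm : Odd m) (hqm : ¬ q ∣ m) (P : ((W.map (Int.castRingHom ℚ))⁄L).Point)
    (hP : m • P = 0) : τ • (σ • P - P) = σ • P - P := by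
  have hvq : A.valuation (q : L) < 1 := A.mem_nonunits_iff.mp hA
  have : CharZero L := charZero_of_injective_algebraMap (algebraMap ℚ L).injective
  obtain ⟨x₀, y₀, α, β, h⟩ := exists_crit (v := A.valuation) (isInt_model (A := A) (L := L) W)
    (by rw [Δ_model]; exact val_int_lt_one hvq hΔ)
    (by rw [c₄_model]; exact val_int_eq_one hq hvq hc)
  have hTσ : TrivMod A.valuation σ := trivMod_of_mem_inertia A hσ
  have hTτ : TrivMod A.valuation τ := trivMod_of_mem_inertia A hτ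
  obtain ⟨h1, h2, h3, h4⟩ := h.fixed (R := ℚ) (S := ℚ) hTσ
  have hmv : A.valuation (m : L) = 1 := by
    have := val_int_eq_one (v := A.valuation) hq hvq (n := (m : ℤ)) (by
      intro hd; exact hqm (by exact_mod_cast hd))
    exact_mod_cast this
  exact h.smul_smul_sub hTσ (fun x => ECP.valuation_smul_eq A hσ x) h1 h2 h3 h4 hTτ hm hmv hP

/-- inertia is trivial on torsion prime to the residue characteristic at good primes -/
theorem inertia_good_model (hq : q.Prime) (hA : A.LiesOverPrime q) (hΔ : ¬ (q : ℤ) ∣ W.Δ)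
    {σ : L ≃ₐ[ℚ] L} (hσ : σ ∈ A.inertiaSubgroupIn ℚ) {m : ℕ} (hqm : ¬ q ∣ m)
    (P : ((W.map (Int.castRingHom ℚ))⁄L).Point) (hP : m • P = 0) : σ • P = P := by
  have hvq : A.valuation (q : L) < 1 := A.mem_nonunits_iff.mp hA
  have hmv : A.valuation (m : L) = 1 := by
    have := val_int_eq_one (v := A.valuation) hq hvq (n := (m : ℤ)) (by
      intro hd; exact hqm (by exact_mod_cast hd))
    exact_mod_cast this
  exact smul_eq_of_good (isInt_model (A := A) (L := L) W)
    (by rw [Δ_model]; exact val_int_eq_one hq hvq hΔ) (trivMod_of_mem_inertia A hσ) hmv P hP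

end Model

section Main

open Fermat.Agent.FrobE

variable (E : WeierstrassCurve ℚ) {W : WeierstrassCurve ℤ} (hWE : W.IsIntegralModelOf E)
  {L : Type*} [Field L] [Algebra ℚ L] [DecidableEq L] {A : ValuationSubring L} {q : ℕ}

include hWE

/-- **Inertia is unipotent** on odd torsion at multiplicative primes. -/
theorem inertia_mult [IsAlgClosed L] [Algebra.IsAlgebraic ℚ L] (hq : q.Prime)
    (hA : A.LiesOverPrime q) (hΔ : (q : ℤ) ∣ W.Δ) (hc : ¬ (q : ℤ) ∣ W.c₄)
    {σ τ : L ≃ₐ[ℚ] L} (hσ : σ ∈ A.inertiaSubgroupIn ℚ) (hτ : τ ∈ A.inertiaSubgroupIn ℚ)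
    {m : ℕ} (hm : Odd m) (hqm : ¬ q ∣ m) (P : (E⁄L).Point) (hP : m • P = 0) :
    τ • (σ • P - P) = σ • P - P := by
  obtain ⟨C, hC⟩ := hWE
  have key := inertia_mult_model (L := L) W hq hA hΔ hc hσ hτ hm hqm
  rw [← hC] at key
  obtain ⟨Q, rfl⟩ := (psi (M := L) E C).surjective P
  have hQ : m • Q = 0 := by
    apply (psi (M := L) E C).injective
    rw [map_nsmul, hP, _root_.map_zero]
  have e := congrArg (psi (M := L) E C) (key Q hQ)
  rw [← smul_psi, map_sub, ← smul_psi] at e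
  exact e

/-- **Good reduction**: inertia acts trivially. -/
theorem inertia_good (hq : q.Prime) (hA : A.LiesOverPrime q) (hΔ : ¬ (q : ℤ) ∣ W.Δ)
    {σ : L ≃ₐ[ℚ] L} (hσ : σ ∈ A.inertiaSubgroupIn ℚ) {m : ℕ} (hqm : ¬ q ∣ m)
    (P : (E⁄L).Point) (hP : m • P = 0) : σ • P = P := by
  obtain ⟨C, hC⟩ := hWE
  have key := inertia_good_model (L := L) W hq hA hΔ hσ hqm
  rw [← hC] at key
  obtain ⟨Q, rfl⟩ := (psi (M := L) E C).surjective P
  have hQ : m • Q = 0 := by
    apply (psi (M := L) E C).injective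
    rw [map_nsmul, hP, _root_.map_zero]
  have e := congrArg (psi (M := L) E C) (key Q hQ)
  rw [← smul_psi] at e
  exact e

end Main

end Fermat.Agent.ERep
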