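import Fermat.Agent.EC.Inertia

/-!
# Nodal reduction through the critical point of the Weierstrass equation

If `W` has nodal reduction, let `(x₀, y₀)` be the critical point of the Weierstrass polynomial
reducing to the node and `α`, `β` the slopes of the two branches.  For a point `P = (x, y)` put
`u = (y - y₀) - α (x - x₀)`, `w = (y - y₀) - β (x - x₀)`.
-/

set_option autoImplicit false

namespace Fermat.Agent.ERep

open WeierstrassCurve WeierstrassCurve.Affine WeierstrassCurve.Affine.Point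
open Fermat.Agent.EC

section Val

variable {K Γ₀ : Type*} [Field K] [LinearOrderedCommGroupWithZero Γ₀] {v : Valuation K Γ₀}

lemma mul_lt {a b : K} (ha : v a < 1) (hb : v b ≤ 1) : v (a * b) < 1 := by
  rw [map_mul]
  exact mul_lt_one_of_nonneg_of_lt_one_left zero_le ha hb

lemma mul_lt' {a b : K} (ha : v a ≤ 1) (hb : v b < 1) : v (a * b) < 1 := by
  rw [mul_comm]; exact mul_lt hb ha

lemma add_lt {a b : K} (ha : v a < 1) (hb : v b < 1) : v (a + b) < 1 :=
  v.map_add_lt ha hb

lemma sub_lt {a b : K} (ha : v a < 1) (hb : v b < 1) : v (a - b) < 1 :=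
  (v.map_sub a b).trans_lt (max_lt ha hb)

lemma lt_of_pow {a : K} {n : ℕ} (h : v (a ^ n) < 1) : v a < 1 := by
  by_contra hcon
  rw [not_lt] at hcon
  rw [map_pow] at h
  exact absurd (one_le_pow₀ hcon) (not_le.mpr h)

lemma mem_of_lt {a : K} (h : v a < 1) : a ∈ v.integer := h.le

lemma mi {a : K} (h : v a ≤ 1) : a ∈ v.integer := h

lemma im {a : K} (h : a ∈ v.integer) : v a ≤ 1 := h

/-- dividing valuations -/
lemma one_le_of_mul_eq {a b c : K} {r : Γ₀} (h : a * b = c) (hc : v c = r) (hb : v b ≤ r)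
    (hr : r ≠ 0) : 1 ≤ v a := by
  by_contra hcon
  rw [not_le] at hcon
  have h1 : v a * v b = r := by rw [← map_mul, h, hc]
  have hb0 : v b ≠ 0 := by
    intro h0
    rw [h0, mul_zero] at h1
    exact hr h1.symm
  have h2 : v a * v b < 1 * v b := mul_lt_mul_of_pos_right hcon (zero_lt_iff.mpr hb0)
  rw [h1, one_mul] at h2
  exact absurd hb (not_le.mpr h2)

end Val

section Crit

variable {K Γ₀ : Type*} [Field K] [LinearOrderedCommGroupWithZero Γ₀]

/-- `(x₀, y₀)` is a critical point of the Weierstrass polynomial reducing to a node, `α`, `β` are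
the slopes of the branches. -/
structure Crit (v : Valuation K Γ₀) (W : Affine K) (x₀ y₀ α β : K) : Prop where
  isInt : IsInt v W
  x₀_le : v x₀ ≤ 1
  y₀_le : v y₀ ≤ 1
  α_le : v α ≤ 1
  β_le : v β ≤ 1
  sum : α + β = -W.a₁
  prod : α * β = -(W.a₂ + 3 * x₀)
  unit : v (β - α) = 1
  dy : 2 * y₀ + W.a₁ * x₀ + W.a₃ = 0
  dx : W.a₁ * y₀ = 3 * x₀ ^ 2 + 2 * W.a₂ * x₀ + W.a₄
  lt : v (y₀ ^ 2 + W.a₁ * x₀ * y₀ + W.a₃ * y₀ -
    (x₀ ^ 3 + W.a₂ * x₀ ^ 2 + W.a₄ * x₀ + W.a₆)) < 1

variable {v : Valuation K Γ₀} {W : Affine K} {x₀ y₀ α β : K}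

/-- value of the Weierstrass polynomial at the critical point -/
def F₀ (W : Affine K) (x₀ y₀ : K) : K :=
  y₀ ^ 2 + W.a₁ * x₀ * y₀ + W.a₃ * y₀ - (x₀ ^ 3 + W.a₂ * x₀ ^ 2 + W.a₄ * x₀ + W.a₆)

namespace Crit

/-- exchanging the two branches -/
lemma symm (h : Crit v W x₀ y₀ α β) : Crit v W x₀ y₀ β α :=
  { h with
    α_le := h.β_le
    β_le := h.α_le
    sum := by rw [add_comm, h.sum]
    prod := by rw [mul_comm, h.prod]
    unit := by rw [Valuation.map_sub_swap, h.unit] }

lemma eqn (h : Crit v W x₀ y₀ α β) {x y : K} (e : W.Equation x y) :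
    ((y - y₀) - α * (x - x₀)) * ((y - y₀) - β * (x - x₀)) = (x - x₀) ^ 3 - F₀ W x₀ y₀ := by
  have e' := (W.equation_iff x y).mp e
  have h1 := h.sum
  have h2 := h.prod
  have h3 := h.dy
  have h4 := h.dx
  unfold F₀
  linear_combination e' - (x - x₀) * (y - y₀) * h1 + (x - x₀) ^ 2 * h2 - (y - y₀) * h3 -
    (x - x₀) * h4

/-- derivative in `y` direction -/
lemma D_eq (h : Crit v W x₀ y₀ α β) (x y : K) :
    2 * y + W.a₁ * x + W.a₃ =
      ((y - y₀) - α * (x - x₀)) + ((y - y₀) - β * (x - x₀)) := by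
  linear_combination h.dy + (x - x₀) * h.sum

/-- derivative in the direction of the first branch -/
lemma M_eq (h : Crit v W x₀ y₀ α β) (x y : K) :
    (3 * x ^ 2 + 2 * W.a₂ * x + W.a₄ - W.a₁ * y) - α * (2 * y + W.a₁ * x + W.a₃) =
      3 * (x - x₀) ^ 2 + (β - α) * ((y - y₀) - α * (x - x₀)) := by
  linear_combination (-1) * h.dx - α * h.dy - (y - y₀) * h.sum + 2 * (x - x₀) * h.prod -
    (x - x₀) * α * h.sum

/-- `x`-coordinate of a sum in terms of the slope -/
lemma X_eq (h : Crit v W x₀ y₀ α β) (l x₁ x₂ : K) :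
    l ^ 2 + W.a₁ * l - W.a₂ - x₁ - x₂ - x₀ =
      (l - α) * (l - β) - (x₁ - x₀) - (x₂ - x₀) := by
  linear_combination l * h.sum - h.prod

/-- numerator of duplication -/
lemma Phi_eq (h : Crit v W x₀ y₀ α β) {x y : K} (e : W.Equation x y) :
    x ^ 4 - W.b₄ * x ^ 2 - 2 * W.b₆ * x - W.b₈ =
      ((3 * x ^ 2 + 2 * W.a₂ * x + W.a₄ - W.a₁ * y) - α * (2 * y + W.a₁ * x + W.a₃)) *
      ((3 * x ^ 2 + 2 * W.a₂ * x + W.a₄ - W.a₁ * y) - β * (2 * y + W.a₁ * x + W.a₃)) +
      (x₀ - 2 * (x - x₀)) * (2 * y + W.a₁ * x + W.a₃) ^ 2 := by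
  have e' := (W.equation_iff x y).mp e
  have h1 := h.sum
  have h2 := h.prod
  rw [b₄, b₆, b₈]
  linear_combination (W.a₁ ^ 2 + 4 * W.a₂ + 8 * x) * e' +
    (3 * x ^ 2 + 2 * W.a₂ * x + W.a₄ - W.a₁ * y) * (2 * y + W.a₁ * x + W.a₃) * h1 -
    (2 * y + W.a₁ * x + W.a₃) ^ 2 * h2

lemma F₀_lt (h : Crit v W x₀ y₀ α β) : v (F₀ W x₀ y₀) < 1 := h.lt

/-- local coordinates -/
lemma uw_int (h : Crit v W x₀ y₀ α β) {x y : K} (hx : v x ≤ 1) (hy : v y ≤ 1) :
    v ((y - y₀) - α * (x - x₀)) ≤ 1 ∧ v ((y - y₀) - β * (x - x₀)) ≤ 1 := by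
  have h1 : x ∈ v.integer := hx
  have h2 : y ∈ v.integer := hy
  have h3 : x₀ ∈ v.integer := h.x₀_le
  have h4 : y₀ ∈ v.integer := h.y₀_le
  have h5 : α ∈ v.integer := h.α_le
  have h6 : β ∈ v.integer := h.β_le
  exact ⟨sub_mem (sub_mem h2 h4) (mul_mem h5 (sub_mem h1 h3)),
    sub_mem (sub_mem h2 h4) (mul_mem h6 (sub_mem h1 h3))⟩

/-- A point not reducing to the node has nonsingular reduction. -/
lemma ns (h : Crit v W x₀ y₀ α β) {x y : K} (e : W.Equation x y) (hx : v x ≤ 1)
    (hnd : ¬ (v (x - x₀) < 1 ∧ v (y - y₀) < 1)) : NS v W x := by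
  have hy : v y ≤ 1 := h.isInt.y_le_one e hx
  obtain ⟨hu, hw⟩ := h.uw_int hx hy
  set u := (y - y₀) - α * (x - x₀) with hu'
  set w := (y - y₀) - β * (x - x₀) with hw'
  have hD := h.D_eq x y
  have hM := h.M_eq x y
  rw [← hu', ← hw'] at hD
  rw [← hu'] at hM
  have hE := h.eqn e
  rw [← hu', ← hw'] at hE
  by_contra hns
  apply hnd
  unfold NS at hns
  push Not at hns
  obtain ⟨n1, n2⟩ := hns
  set D := 2 * y + W.a₁ * x + W.a₃ with hDd
  set M := 3 * x ^ 2 + 2 * W.a₂ * x + W.a₄ - W.a₁ * y with hMd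
  have hDle : v D ≤ 1 := by
    rw [hD]
    exact im (add_mem (mi hu) (mi hw))
  have hXi : (x - x₀) ∈ v.integer := sub_mem (mi hx) (mi h.x₀_le)
  have hδi : (β - α) ∈ v.integer := h.unit.le
  have hui : u ∈ v.integer := hu
  have hDi : D ∈ v.integer := hDle
  have hψ : 4 * x ^ 3 + W.b₂ * x ^ 2 + 2 * W.b₄ * x + W.b₆ = D ^ 2 := by
    have e' := (W.equation_iff x y).mp e
    rw [hDd, b₂, b₄, b₆]
    linear_combination (-4) * e'
  have hDlt : v D < 1 := by
    refine lt_of_le_of_ne hDle fun h1 => n1 ?_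
    rw [hψ, map_pow, h1, one_pow]
  have hΦ := h.Phi_eq e
  have hMα : v (M - α * D) ≤ 1 := by
    rw [hM]
    exact im (add_mem (mul_mem (natCast_mem_integer v 3) (pow_mem hXi 2))
      (mul_mem hδi hui))
  have hMβ : v (M - β * D) ≤ 1 := by
    have : M - β * D = (M - α * D) - (β - α) * D := by ring
    rw [this]
    exact im (sub_mem (mi hMα) (mul_mem hδi hDi))
  have hprod : v ((M - α * D) * (M - β * D)) < 1 := by
    have h1 : v ((M - α * D) * (M - β * D)) ≤ 1 := im (mul_mem (mi hMα) (mi hMβ))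
    refine lt_of_le_of_ne h1 fun h2 => n2 ?_
    rw [hΦ]
    have h3 : v ((x₀ - 2 * (x - x₀)) * D ^ 2) < 1 := by
      refine mul_lt' ?_ ?_
      · exact im (sub_mem (mi h.x₀_le) (mul_mem (natCast_mem_integer v 2) hXi))
      · rw [map_pow]
        exact pow_lt_one₀ zero_le hDlt two_ne_zero
    rw [v.map_add_eq_of_lt_left (by rw [h2]; exact h3), h2]
  have hM1 : v (M - α * D) < 1 := by
    have hd : v ((β - α) * D) < 1 := mul_lt' h.unit.le hDlt
    by_contra hcon
    rw [not_lt] at hcon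
    have h1 : v (M - α * D) = 1 := le_antisymm hMα hcon
    have h2 : v (M - β * D) = 1 := by
      have : M - β * D = (M - α * D) - (β - α) * D := by ring
      rw [this, v.map_sub_eq_of_lt_left (by rw [h1]; exact hd), h1]
    rw [map_mul, h1, h2, one_mul] at hprod
    exact lt_irrefl _ hprod
  rw [hM] at hM1
  -- the key identity
  have hw2 : w = D - u := by rw [hD]; ring
  have hX : (β - α) * (x - x₀) = 2 * u - D := by rw [hD, hu', hw']; ring
  set X := x - x₀ with hXd
  set δ := β - α with hδd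
  set M' := 3 * X ^ 2 + δ * u with hM'
  have key : δ ^ 3 * u ^ 3 =
      M' * (-2 * u ^ 2 * δ ^ 2) + D * (-24 * u ^ 3 + 6 * u ^ 2 * D + 3 * u ^ 2 * δ ^ 3 +
        36 * u ^ 3 - 18 * u ^ 2 * D + 3 * u * D ^ 2) + F₀ W x₀ y₀ * (3 * u * δ ^ 3) := by
    rw [hw2] at hE
    have hE3 : δ ^ 3 * (u * (D - u)) = (2 * u - D) ^ 3 - δ ^ 3 * F₀ W x₀ y₀ := by
      rw [hE, ← hX]; ring
    have hM3 : δ ^ 2 * M' = 3 * (2 * u - D) ^ 2 + δ ^ 3 * u := by
      rw [hM', ← hX]; ring
    linear_combination (2 * u ^ 2) * hM3 - (3 * u) * hE3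
  have hu3 : v (δ ^ 3 * u ^ 3) < 1 := by
    rw [key]
    have hn : ∀ n : ℕ, ((n : ℕ) : K) ∈ v.integer := natCast_mem_integer v
    have hFlt := h.F₀_lt
    refine add_lt (add_lt (mul_lt hM1 ?_) (mul_lt hDlt ?_)) (mul_lt hFlt ?_)
    · have := mul_mem (mul_mem (hn 2) (pow_mem hui 2)) (pow_mem hδi 2)
      have h2 := neg_mem this
      change v _ ≤ 1 at h2
      convert h2 using 2
      push_cast; ring
    · have t1 := mul_mem (hn 12) (pow_mem hui 3)
      have t2 := mul_mem (mul_mem (hn 12) (pow_mem hui 2)) hDi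
      have t3 := mul_mem (mul_mem (hn 3) (pow_mem hui 2)) (pow_mem hδi 3)
      have t4 := mul_mem (mul_mem (hn 3) hui) (pow_mem hDi 2)
      have := add_mem (add_mem (sub_mem t1 t2) t3) t4
      change v _ ≤ 1 at this
      convert this using 2
      push_cast; ring
    · have := mul_mem (mul_mem (hn 3) hui) (pow_mem hδi 3)
      change v _ ≤ 1 at this
      convert this using 2
      push_cast; ring
  have hult : v u < 1 := by
    rw [map_mul, map_pow v δ, h.unit, one_pow, one_mul] at hu3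
    exact lt_of_pow hu3
  have hwlt : v w < 1 := by rw [hw2]; exact sub_lt hDlt hult
  have hXlt : v X < 1 := by
    have h1 : v (δ * X) < 1 := by
      have : δ * X = u - w := by rw [hu', hw']; ring
      rw [this]; exact sub_lt hult hwlt
    rw [map_mul, h.unit, one_mul] at h1
    exact h1
  refine ⟨hXlt, ?_⟩
  have : y - y₀ = u + α * X := by rw [hu']; ring
  rw [this]
  exact add_lt hult (mul_lt' h.α_le hXlt)

end Crit

/-- `P` reduces to the node -/
def Nd (v : Valuation K Γ₀) (x₀ y₀ : K) : W.Point → Prop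
  | .zero => False
  | .some x y _ => v (x - x₀) < 1 ∧ v (y - y₀) < 1

namespace Crit

variable [DecidableEq K]

omit [DecidableEq K] in
/-- `v` of the shifted `x`-coordinate of a sum when both slopes are far from `α`, `β`. -/
lemma one_le_X (h : Crit v W x₀ y₀ α β) {l x₁ x₂ : K} (h1 : v (x₁ - x₀) < 1)
    (h2 : v (x₂ - x₀) < 1) (hα : 1 ≤ v (l - α)) (hβ : 1 ≤ v (l - β)) :
    1 ≤ v (l ^ 2 + W.a₁ * l - W.a₂ - x₁ - x₂ - x₀) := by
  have hp : 1 ≤ v ((l - α) * (l - β)) := by
    rw [map_mul]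
    calc (1 : Γ₀) = 1 * 1 := (one_mul 1).symm
      _ ≤ _ := mul_le_mul' hα hβ
  rw [h.X_eq, sub_sub, v.map_sub_eq_of_lt_left ((add_lt h1 h2).trans_le hp)]
  exact hp

/-- Two points reducing to the node, on the same branch component, differ by a point not reducing
to the node. -/
theorem not_nd_sub (h : Crit v W x₀ y₀ α β) {x y x' y' : K} (n : W.Nonsingular x y)
    (n' : W.Nonsingular x' y') (hX : v (x - x₀) < 1) (hX' : v (x' - x₀) < 1)
    (hu : v ((y' - y₀) - α * (x' - x₀)) = v ((y - y₀) - α * (x - x₀)))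
    (hw : v ((y' - y₀) - β * (x' - x₀)) = v ((y - y₀) - β * (x - x₀)))
    (hne : v ((y - y₀) - α * (x - x₀)) ≠ v ((y - y₀) - β * (x - x₀))) :
    ¬ Nd v x₀ y₀ ((.some x' y' n' : W.Point) - .some x y n) := by
  by_cases hxx : x' = x
  · subst hxx
    rcases Y_eq_of_X_eq n'.1 n.1 rfl with hy | hy
    · subst hy
      rw [sub_self]
      exact id
    · exfalso
      apply hne
      rw [← hu]
      have : (y' - y₀) - α * (x' - x₀) = -((y - y₀) - β * (x' - x₀)) := by
        rw [hy, negY]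
        linear_combination h.dy * (-1) - (x' - x₀) * h.sum
      rw [this, Valuation.map_neg]
  · have hsub : (.some x' y' n' : W.Point) - .some x y n =
        .some _ _ (nonsingular_add n' ((W.nonsingular_neg x y).mpr n)
          fun hxy => hxx hxy.left) := by
      rw [sub_eq_add_neg]
      exact add_of_X_ne hxx
    rw [hsub]
    intro hnd
    have h1 := hnd.1
    rw [addX, slope_of_X_ne hxx] at h1
    set l := (y' - W.negY x y) / (x' - x) with hl
    have hx0 : x' - x ≠ 0 := sub_ne_zero.mpr hxx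
    set u := (y - y₀) - α * (x - x₀) with hud
    set w := (y - y₀) - β * (x - x₀) with hwd
    set u' := (y' - y₀) - α * (x' - x₀) with hud'
    set w' := (y' - y₀) - β * (x' - x₀) with hwd'
    have hlα : (l - α) * (x' - x) = u' + w := by
      rw [sub_mul, hl, div_mul_cancel₀ _ hx0, negY, hud', hwd]
      linear_combination h.dy + (x - x₀) * h.sum
    have hlβ : (l - β) * (x' - x) = w' + u := by
      rw [sub_mul, hl, div_mul_cancel₀ _ hx0, negY, hwd', hud]
      linear_combination h.dy + (x - x₀) * h.sum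
    have hδX : (β - α) * (x' - x) = (u' - w') - (u - w) := by
      rw [hud', hwd', hud, hwd]; ring
    have hxx' : v (x' - x) ≤ max (v u) (v w) := by
      have h2 : v (x' - x) = v ((u' - w') - (u - w)) := by
        rw [← hδX, map_mul, h.unit, one_mul]
      rw [h2]
      refine (v.map_sub _ _).trans (max_le ((v.map_sub _ _).trans ?_) (v.map_sub _ _))
      rw [hu, hw]
    have e1 : v (u' + w) = max (v u) (v w) := by
      rw [← hu]
      exact v.map_add_of_distinct_val (by rw [hu]; exact hne)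
    have e2 : v (w' + u) = max (v u) (v w) := by
      rw [max_comm, ← hw]
      exact v.map_add_of_distinct_val (by rw [hw]; exact hne.symm)
    have hr : max (v u) (v w) ≠ 0 := by
      intro h0
      have h3 : v u = 0 := le_antisymm ((le_max_left _ _).trans h0.le) zero_le
      have h4 : v w = 0 := le_antisymm ((le_max_right _ _).trans h0.le) zero_le
      exact hne (h3.trans h4.symm)
    have k1 := one_le_of_mul_eq hlα e1 hxx' hr
    have k2 := one_le_of_mul_eq hlβ e2 hxx' hr
    exact absurd h1 (not_lt.mpr (h.one_le_X hX' hX k1 k2))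

/-- doubling of a point on the middle component -/
theorem not_nd_two (h : Crit v W x₀ y₀ α β) {x y : K} (n : W.Nonsingular x y)
    (hX : v (x - x₀) < 1)
    (heq : v ((y - y₀) - α * (x - x₀)) = v ((y - y₀) - β * (x - x₀))) :
    ¬ Nd v x₀ y₀ ((.some x y n : W.Point) + .some x y n) := by
  by_cases hy : y = W.negY x y
  · rw [add_self_of_Y_eq hy]
    exact id
  · rw [add_self_of_Y_ne hy]
    intro hnd
    have h1 := hnd.1
    rw [addX, slope_of_Y_ne rfl hy] at h1
    have hD0 : y - W.negY x y ≠ 0 := sub_ne_zero.mpr hy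
    have hDe : y - W.negY x y = 2 * y + W.a₁ * x + W.a₃ := by rw [negY]; ring
    set l := (3 * x ^ 2 + 2 * W.a₂ * x + W.a₄ - W.a₁ * y) / (y - W.negY x y) with hl
    set u := (y - y₀) - α * (x - x₀) with hud
    set w := (y - y₀) - β * (x - x₀) with hwd
    have hD := h.D_eq x y
    rw [← hud, ← hwd] at hD
    have hMα := h.M_eq x y
    have hMβ := h.symm.M_eq x y
    rw [← hud] at hMα
    rw [← hwd] at hMβ
    have hlα : (l - α) * (y - W.negY x y) = 3 * (x - x₀) ^ 2 + (β - α) * u := by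
      rw [sub_mul, hl, div_mul_cancel₀ _ hD0, hDe, hMα]
    have hlβ : (l - β) * (y - W.negY x y) = 3 * (x - x₀) ^ 2 + (α - β) * w := by
      rw [sub_mul, hl, div_mul_cancel₀ _ hD0, hDe, hMβ]
    have hDv : v (y - W.negY x y) ≤ v u := by
      rw [hDe, hD]
      exact (v.map_add _ _).trans (max_le le_rfl heq.symm.le)
    have hu0 : v u ≠ 0 := by
      intro h0
      rw [h0] at hDv
      exact hD0 (v.zero_iff.mp (le_antisymm hDv zero_le))
    have hXu : v (x - x₀) ≤ v u := by
      have h2 : v ((β - α) * (x - x₀)) = v (u - w) := by congr 1; rw [hud, hwd]; ring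
      rw [map_mul, h.unit, one_mul] at h2
      rw [h2]
      exact (v.map_sub _ _).trans (max_le le_rfl heq.symm.le)
    have h3X : v (3 * (x - x₀) ^ 2) < v u := by
      have h3 : v (3 : K) ≤ 1 := natCast_mem_integer v 3
      rw [map_mul, map_pow, sq]
      calc v 3 * (v (x - x₀) * v (x - x₀)) ≤ 1 * (v (x - x₀) * v (x - x₀)) :=
            mul_le_mul_left h3 _
        _ = v (x - x₀) * v (x - x₀) := one_mul _
        _ ≤ v (x - x₀) * v u := mul_le_mul_right hXu _
        _ < 1 * v u := mul_lt_mul_of_pos_right hX (zero_lt_iff.mpr hu0)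
        _ = v u := one_mul _
    have e1 : v (3 * (x - x₀) ^ 2 + (β - α) * u) = v u := by
      have : v ((β - α) * u) = v u := by rw [map_mul, h.unit, one_mul]
      rw [v.map_add_eq_of_lt_right (by rw [this]; exact h3X), this]
    have e2 : v (3 * (x - x₀) ^ 2 + (α - β) * w) = v u := by
      have : v ((α - β) * w) = v u := by rw [map_mul, h.symm.unit, one_mul, heq]
      rw [v.map_add_eq_of_lt_right (by rw [this]; exact h3X), this]
    have k1 := one_le_of_mul_eq hlα e1 hDv hu0
    have k2 := one_le_of_mul_eq hlβ e2 hDv hu0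
    exact absurd h1 (not_lt.mpr (h.one_le_X hX hX k1 k2))

/-- doubling preserves nonsingular reduction -/
theorem not_nd_two' (h : Crit v W x₀ y₀ α β) {P : W.Point} (hP : ¬ Nd v x₀ y₀ P) :
    ¬ Nd v x₀ y₀ (P + P) := by
  rcases P with _ | ⟨x, y, n⟩
  · have : (Point.zero : W.Point) + Point.zero = 0 := add_zero 0
    rw [this]
    exact id
  by_cases hy : y = W.negY x y
  · rw [add_self_of_Y_eq hy]
    exact id
  by_cases hx : v x ≤ 1
  · have hnd : ¬ (v (x - x₀) < 1 ∧ v (y - y₀) < 1) := hP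
    have hyi : v y ≤ 1 := h.isInt.y_le_one n.1 hx
    have hns := h.ns n.1 hx hnd
    obtain ⟨hui, hwi⟩ := h.uw_int hx hyi
    rw [add_self_of_Y_ne hy]
    rintro ⟨h1, h2⟩
    rw [addY, negAddY, negY] at h2
    rw [addX, slope_of_Y_ne rfl hy] at h1 h2
    have hD0 : y - W.negY x y ≠ 0 := sub_ne_zero.mpr hy
    have hDe : y - W.negY x y = 2 * y + W.a₁ * x + W.a₃ := by rw [negY]; ring
    set l := (3 * x ^ 2 + 2 * W.a₂ * x + W.a₄ - W.a₁ * y) / (y - W.negY x y) with hl
    set D := y - W.negY x y with hDd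
    set M := 3 * x ^ 2 + 2 * W.a₂ * x + W.a₄ - W.a₁ * y with hMd
    have hXi : (x - x₀) ∈ v.integer := sub_mem (mi hx) (mi h.x₀_le)
    have hYi : (y - y₀) ∈ v.integer := sub_mem (mi hyi) (mi h.y₀_le)
    have hDi : v D ≤ 1 := by
      rw [hDe, h.D_eq]
      exact im (add_mem (mi hui) (mi hwi))
    have hlD : l * D = M := by rw [hl, div_mul_cancel₀ _ hD0]
    have hX2 := h.X_eq l x x
    rcases lt_or_eq_of_le hDi with hDlt | hD1
    · -- vertical-ish tangent
      have hΦ : v ((M - α * D) * (M - β * D)) = 1 := by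
        have e1 := h.Phi_eq n.1
        rw [← hDe, ← hMd] at e1
        have e2 : v (x ^ 4 - W.b₄ * x ^ 2 - 2 * W.b₆ * x - W.b₈) = 1 := by
          rcases hns with hns | hns
          · exfalso
            have e3 : 4 * x ^ 3 + W.b₂ * x ^ 2 + 2 * W.b₄ * x + W.b₆ = D ^ 2 := by
              have e' := (W.equation_iff x y).mp n.1
              rw [hDe, b₂, b₄, b₆]
              linear_combination (-4) * e'
            rw [e3, map_pow] at hns
            exact absurd hns (pow_lt_one₀ zero_le hDlt two_ne_zero).ne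
          · exact hns
        have e3 : v ((x₀ - 2 * (x - x₀)) * D ^ 2) < 1 := by
          refine mul_lt' ?_ ?_
          · exact im (sub_mem (mi h.x₀_le) (mul_mem (natCast_mem_integer v 2) hXi))
          · rw [map_pow]
            exact pow_lt_one₀ zero_le hDlt two_ne_zero
        have e4 : (M - α * D) * (M - β * D) =
            (x ^ 4 - W.b₄ * x ^ 2 - 2 * W.b₆ * x - W.b₈) - (x₀ - 2 * (x - x₀)) * D ^ 2 := by
          rw [e1]; ring
        rw [e4, v.map_sub_eq_of_lt_left (by rw [e2]; exact e3), e2]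
      have e5 : ((l - α) * (l - β)) * D ^ 2 = (M - α * D) * (M - β * D) := by
        rw [← hlD]; ring
      have e6 : 1 < v ((l - α) * (l - β)) := by
        by_contra hcon
        rw [not_lt] at hcon
        have e7 : v (((l - α) * (l - β)) * D ^ 2) < 1 := mul_lt' hcon (by
          rw [map_pow]
          exact pow_lt_one₀ zero_le hDlt two_ne_zero)
        rw [e5, hΦ] at e7
        exact lt_irrefl _ e7
      have e8 : v ((x - x₀) + (x - x₀)) ≤ 1 := im (add_mem hXi hXi)
      rw [hX2, sub_sub, v.map_sub_eq_of_lt_left (e8.trans_lt e6)] at h1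
      exact absurd h1 (not_lt.mpr e6.le)
    · -- integral slope
      have hli : v l ≤ 1 := by
        have : v l * v D = v M := by rw [← map_mul, hlD]
        rw [hD1, mul_one] at this
        rw [this]
        have := h.M_eq x y
        rw [← hDe, ← hMd] at this
        have e : M = α * D + (3 * (x - x₀) ^ 2 + (β - α) * ((y - y₀) - α * (x - x₀))) := by
          rw [← this]; ring
        rw [e]
        exact im (add_mem (mul_mem (mi h.α_le) (mi hDi))
          (add_mem (mul_mem (natCast_mem_integer v 3) (pow_mem hXi 2))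
            (mul_mem (mi h.unit.le) (mi hui))))
      rw [hX2] at h1
      set X := x - x₀ with hXd
      set X₂ := (l - α) * (l - β) - X - X with hX2d
      have hε : v ((y - y₀) - l * X) < 1 := by
        have e1 : (y - y₀) - l * X = -(-(l * (l ^ 2 + W.a₁ * l - W.a₂ - x - x - x) + y) -
            W.a₁ * (l ^ 2 + W.a₁ * l - W.a₂ - x - x) - W.a₃ - y₀) - (W.a₁ + l) * X₂ := by
          rw [hX2d, hXd]
          linear_combination (-1) * h.dy - (W.a₁ + l) * (l * h.sum - h.prod)
        rw [e1]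
        refine sub_lt ?_ (mul_lt' (im (add_mem (mi h.isInt.a₁) (mi hli))) h1)
        rw [Valuation.map_neg]
        exact h2
      have hE := h.eqn n.1
      rw [← hXd] at hE
      have hX3 : v (X ^ 3) < 1 := by
        have e2 : X ^ 3 = -(X₂ * X ^ 2) - F₀ W x₀ y₀ - ((y - y₀) - l * X) *
            (((y - y₀) - l * X) + (l - α) * X + (l - β) * X) := by
          rw [hX2d]
          linear_combination hE
        rw [e2]
        refine sub_lt (sub_lt ?_ h.F₀_lt) (mul_lt hε ?_)
        · rw [Valuation.map_neg]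
          exact mul_lt h1 (im (pow_mem hXi 2))
        · exact im (add_mem (add_mem (mem_of_lt hε)
            (mul_mem (sub_mem (mi hli) (mi h.α_le)) hXi))
            (mul_mem (sub_mem (mi hli) (mi h.β_le)) hXi))
      have hXlt : v X < 1 := lt_of_pow hX3
      refine hnd ⟨hXlt, ?_⟩
      have : y - y₀ = ((y - y₀) - l * X) + l * X := by ring
      rw [this]
      exact add_lt hε (mul_lt' hli hXlt)
  · rw [not_le] at hx
    have h1 : InE1 v (xX (W := W)) xZ (.some x y n) := by
      simpa [InE1] using hx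
    have h2 := ((isKummer W).inE1_add_sub v h.isInt.b₂ h.isInt.b₄ h.isInt.b₆ h.isInt.b₈ h1 h1).1
    rw [add_self_of_Y_ne hy] at h2 ⊢
    rintro ⟨h3, -⟩
    set x' := W.addX x x (W.slope x x y y) with hx'
    have h4 : 1 < v x' := by
      unfold InE1 at h2
      rw [xX_some, xZ_some, map_one] at h2
      exact h2
    have h5 : v x' ≤ 1 := by
      have : x' = (x' - x₀) + x₀ := by ring
      rw [this]
      exact im (add_mem (mem_of_lt h3) (mi h.x₀_le))
    exact absurd h5 (not_le.mpr h4)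

/-- Odd torsion points reducing to the node are not on the middle component. -/
theorem ne_of_torsion (h : Crit v W x₀ y₀ α β) {x y : K} (n : W.Nonsingular x y) {m : ℕ}
    (hm : Odd m) (hP : m • (.some x y n : W.Point) = 0)
    (hnd : Nd v x₀ y₀ (.some x y n : W.Point)) :
    v ((y - y₀) - α * (x - x₀)) ≠ v ((y - y₀) - β * (x - x₀)) := by
  intro heq
  have h1 := h.not_nd_two n hnd.1 heq
  have h2 : ∀ k : ℕ, ¬ Nd v x₀ y₀ ((2 ^ (k + 1)) • (.some x y n : W.Point)) := by
    intro k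
    induction k with
    | zero =>
      rw [zero_add, pow_one, two_nsmul]
      exact h1
    | succ k ih =>
      rw [pow_succ, mul_comm, mul_nsmul', two_nsmul]
      exact h.not_nd_two' ih
  have hcop : Nat.Coprime 2 m := (Nat.coprime_two_left).mpr hm
  have hm0 : 0 < m := hm.pos
  have hφ : 2 ^ m.totient ≡ 1 [MOD m] := Nat.ModEq.pow_totient hcop
  have hφ0 : 0 < m.totient := Nat.totient_pos.mpr hm0
  obtain ⟨k, hk⟩ : ∃ k, m.totient = k + 1 := ⟨m.totient - 1, by omega⟩
  rw [hk] at hφ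
  have h3 : (2 ^ (k + 1)) • (.some x y n : W.Point) = .some x y n := by
    have h4 : ∃ c, 2 ^ (k + 1) = 1 + m * c := by
      have h5 := (Nat.modEq_iff_dvd' (Nat.one_le_two_pow)).mp hφ.symm
      obtain ⟨c, hc⟩ := h5
      exact ⟨c, by have := Nat.one_le_two_pow (n := k + 1); omega⟩
    obtain ⟨c, hc⟩ := h4
    rw [hc, add_nsmul, one_nsmul, mul_comm, mul_nsmul', hP, nsmul_zero, add_zero]
  exact h2 k (by rw [h3]; exact hnd)

end Crit

end Crit

section Galois

variable {R S K Γ₀ : Type*} [CommRing R] [CommRing S] [Field K] [DecidableEq K]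
  [LinearOrderedCommGroupWithZero Γ₀] [Algebra R S] [Algebra R K] [Algebra S K]
  [IsScalarTower R S K] {v : Valuation K Γ₀} {W' : Affine R} {x₀ y₀ α β : K}

/-- `σ P - P` does not reduce to the node if `P` has odd order. -/
theorem Crit.not_nd_smul_sub (h : Crit v (W'⁄K) x₀ y₀ α β) {σ : K ≃ₐ[S] K}
    (hσ : TrivMod v σ) (hσv : ∀ x, v (σ x) = v x) (hx₀ : σ x₀ = x₀) (hy₀ : σ y₀ = y₀)
    (hα : σ α = α) (hβ : σ β = β) {P : (W'⁄K).Point} {m : ℕ} (hm : Odd m) (hP : m • P = 0) :
    ¬ Nd v x₀ y₀ (σ • P - P) := by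
  rcases P with _ | ⟨x, y, n⟩
  · have : σ • (Point.zero : (W'⁄K).Point) - Point.zero = 0 := by
      change σ • (0 : (W'⁄K).Point) - 0 = 0
      rw [smul_zero, sub_zero]
    rw [this]
    exact id
  have hσP : σ • (.some x y n : (W'⁄K).Point) = .some (σ x) (σ y)
    ((W'.baseChange_nonsingular (f := σ.toAlgHom) σ.toAlgHom.injective ..).mpr n) := rfl
  by_cases hnd : Nd v x₀ y₀ (.some x y n : (W'⁄K).Point)
  · rw [hσP]
    have eX : σ x - x₀ = σ (x - x₀) := by rw [map_sub, hx₀]
    have eu : (σ y - y₀) - α * (σ x - x₀) = σ ((y - y₀) - α * (x - x₀)) := by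
      rw [map_sub σ (y - y₀), map_mul, map_sub σ y, map_sub σ x, hx₀, hy₀, hα]
    have ew : (σ y - y₀) - β * (σ x - x₀) = σ ((y - y₀) - β * (x - x₀)) := by
      rw [map_sub σ (y - y₀), map_mul, map_sub σ y, map_sub σ x, hx₀, hy₀, hβ]
    exact h.not_nd_sub n _ hnd.1 (by rw [eX, hσv]; exact hnd.1) (by rw [eu, hσv])
      (by rw [ew, hσv]) (h.ne_of_torsion n hm hP hnd)
  · intro hcon
    have hE1 := smul_sub_inE1 h.isInt hσ (.some x y n) (fun hle => by
      have hx : v x ≤ 1 := by simpa using hle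
      exact h.ns n.1 hx hnd)
    rcases hR : σ • (.some x y n : (W'⁄K).Point) - .some x y n with _ | ⟨x', y', n'⟩
    · rw [hR] at hcon
      exact hcon
    · rw [hR] at hcon hE1
      have h4 : 1 < v x' := by simpa [InE1] using hE1
      have h5 : v x' ≤ 1 := by
        have : x' = (x' - x₀) + x₀ := by ring
        rw [this]
        exact im (add_mem (mem_of_lt hcon.1) (mi h.x₀_le))
      exact absurd h5 (not_le.mpr h4)

/-- **Unipotence**: `(τ - 1)(σ - 1) = 0` on odd torsion prime to the residue characteristic. -/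
theorem Crit.smul_smul_sub (h : Crit v (W'⁄K) x₀ y₀ α β) {σ τ : K ≃ₐ[S] K}
    (hσ : TrivMod v σ) (hσv : ∀ x, v (σ x) = v x) (hx₀ : σ x₀ = x₀) (hy₀ : σ y₀ = y₀)
    (hα : σ α = α) (hβ : σ β = β) (hτ : TrivMod v τ) {P : (W'⁄K).Point} {m : ℕ} (hm : Odd m)
    (hmv : v (m : K) = 1) (hP : m • P = 0) : τ • (σ • P - P) = σ • P - P := by
  have hnd := h.not_nd_smul_sub hσ hσv hx₀ hy₀ hα hβ hm hP
  have hmR : m • (σ • P - P) = 0 := by
    rw [nsmul_sub, hP, sub_zero, ← smul_comm σ m P, hP, smul_zero]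
  refine smul_eq_of_ns h.isInt hτ _ (fun hle => ?_) hmv ?_
  · rcases hR : σ • P - P with _ | ⟨x', y', n'⟩
    · rw [hR] at hle
      simp [← zero_def] at hle
    · rw [hR] at hle hnd
      exact h.ns n'.1 (by simpa using hle) hnd
  · rw [nsmul_sub, hmR, sub_zero, ← smul_comm τ m, hmR, smul_zero]

end Galois

end Fermat.Agent.ERep
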