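import Fermat.Agent.ERep.TorsBasis

/-!
# The Tate module as `ℤ_p ^ 2`
-/

set_option autoImplicit false

namespace Fermat.Agent.ERep

open Fermat.Agent.Tate

/-- compatible bases of `J[p ^ n]` -/
structure TBasis (p : ℕ) (J : Type*) [AddCommGroup J] where
  /-- first basis vectors -/
  P : ℕ → J
  /-- second basis vectors -/
  Q : ℕ → J
  P_mem : ∀ n, P n ∈ tor p J n
  Q_mem : ∀ n, Q n ∈ tor p J n
  P_compat : ∀ n, p • P (n + 1) = P n
  Q_compat : ∀ n, p • Q (n + 1) = Q n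
  indep : ∀ n, ∀ a b : ℤ, a • P n + b • Q n = 0 → (p : ℤ) ^ n ∣ a ∧ (p : ℤ) ^ n ∣ b
  card : ∀ n, Nat.card (tor p J n) = p ^ (2 * n)

namespace TBasis

variable {p : ℕ} [hp : Fact p.Prime] {J : Type*} [AddCommGroup J] (B : TBasis p J)

omit hp in
theorem pow_smul_P (n : ℕ) : (zmultiplesHom J (B.P n)) ((p ^ n : ℕ) : ℤ) = 0 := by
  rw [zmultiplesHom_apply, natCast_zsmul]
  exact (mem_tor p).mp (B.P_mem n)

omit hp in
theorem pow_smul_Q (n : ℕ) : (zmultiplesHom J (B.Q n)) ((p ^ n : ℕ) : ℤ) = 0 := by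
  rw [zmultiplesHom_apply, natCast_zsmul]
  exact (mem_tor p).mp (B.Q_mem n)

/-- the underlying function of the parametrisation of `J[p ^ n]` -/
def g₀ (n : ℕ) : (Fin 2 → ZMod (p ^ n)) →+ J :=
  (ZMod.lift (p ^ n) ⟨zmultiplesHom J (B.P n), B.pow_smul_P n⟩).comp
      (Pi.evalAddMonoidHom (fun _ : Fin 2 => ZMod (p ^ n)) 0) +
    (ZMod.lift (p ^ n) ⟨zmultiplesHom J (B.Q n), B.pow_smul_Q n⟩).comp
      (Pi.evalAddMonoidHom (fun _ : Fin 2 => ZMod (p ^ n)) 1)

omit hp in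
theorem g₀_intCast (n : ℕ) (a : Fin 2 → ℤ) :
    B.g₀ n (fun i => ((a i : ℤ) : ZMod (p ^ n))) = a 0 • B.P n + a 1 • B.Q n := by
  rw [g₀, AddMonoidHom.add_apply, AddMonoidHom.comp_apply, AddMonoidHom.comp_apply]
  show ZMod.lift (p ^ n) _ ((a 0 : ℤ) : ZMod (p ^ n)) + ZMod.lift (p ^ n) _
    ((a 1 : ℤ) : ZMod (p ^ n)) = _
  rw [ZMod.lift_coe, ZMod.lift_coe]
  rfl

omit hp in
theorem exists_int (n : ℕ) (v : Fin 2 → ZMod (p ^ n)) :
    ∃ a : Fin 2 → ℤ, v = fun i => ((a i : ℤ) : ZMod (p ^ n)) := by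
  choose a ha using fun i => ZMod.intCast_surjective (v i)
  exact ⟨a, funext fun i => (ha i).symm⟩

omit hp in
theorem g₀_mem (n : ℕ) (v : Fin 2 → ZMod (p ^ n)) : B.g₀ n v ∈ tor p J n := by
  obtain ⟨a, rfl⟩ := exists_int n v
  rw [g₀_intCast]
  exact (tor p J n).add_mem ((tor p J n).zsmul_mem (B.P_mem n) _)
    ((tor p J n).zsmul_mem (B.Q_mem n) _)

/-- parametrisation as a homomorphism to `J[p ^ n]` -/
def g₁ (n : ℕ) : (Fin 2 → ZMod (p ^ n)) →+ tor p J n :=
  (B.g₀ n).codRestrict (tor p J n) (B.g₀_mem n)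

omit hp in
theorem g₁_injective (n : ℕ) : Function.Injective (B.g₁ n) := by
  rw [injective_iff_map_eq_zero]
  intro v hv
  obtain ⟨a, rfl⟩ := exists_int n v
  have h1 : B.g₀ n (fun i => ((a i : ℤ) : ZMod (p ^ n))) = 0 := congrArg Subtype.val hv
  rw [g₀_intCast] at h1
  obtain ⟨h2, h3⟩ := B.indep n _ _ h1
  funext i
  show ((a i : ℤ) : ZMod (p ^ n)) = 0
  rw [ZMod.intCast_zmod_eq_zero_iff_dvd, Nat.cast_pow]
  fin_cases i
  · exact h2
  · exact h3

theorem g₁_bijective (n : ℕ) : Function.Bijective (B.g₁ n) := by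
  have hne : NeZero (p ^ n) := ⟨pow_ne_zero n hp.out.ne_zero⟩
  have := card_tor_of B.card n
  refine (Nat.bijective_iff_injective_and_card _).mpr ⟨B.g₁_injective n, ?_⟩
  rw [B.card, Nat.card_fun, Nat.card_zmod, Nat.card_fin, ← pow_mul, mul_comm]

/-- the parametrisation of `J[p ^ n]` -/
noncomputable def g (n : ℕ) : (Fin 2 → ZMod (p ^ n)) ≃+ tor p J n :=
  AddEquiv.ofBijective (B.g₁ n) (B.g₁_bijective n)

theorem coe_g (n : ℕ) (v : Fin 2 → ZMod (p ^ n)) : (B.g n v : J) = B.g₀ n v := rfl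

theorem g_step (n : ℕ) (v : Fin 2 → ZMod (p ^ (n + 1))) :
    B.g n (fun i => step p n (v i)) = mulP p n (B.g (n + 1) v) := by
  obtain ⟨a, rfl⟩ := exists_int (n + 1) v
  apply Subtype.ext
  have h1 : (fun i => step p n ((a i : ℤ) : ZMod (p ^ (n + 1)))) =
      fun i => ((a i : ℤ) : ZMod (p ^ n)) := by
    funext i
    rw [map_intCast]
  rw [h1, coe_g, g₀_intCast]
  show _ = p • (B.g (n + 1) (fun i => ((a i : ℤ) : ZMod (p ^ (n + 1)))) : J)
  rw [coe_g, g₀_intCast, smul_add, smul_comm p (a 0), smul_comm p (a 1), B.P_compat, B.Q_compat]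

/-- reduction of a vector -/
noncomputable def redV (n : ℕ) : (Fin 2 → ℤ_[p]) →+ (Fin 2 → ZMod (p ^ n)) where
  toFun v i := PadicInt.toZModPow n (v i)
  map_zero' := funext fun _ => map_zero _
  map_add' _ _ := funext fun _ => map_add _ _ _

/-- projection to `J[p ^ n]` -/
noncomputable def pr (n : ℕ) : (Fin 2 → ℤ_[p]) →+ tor p J n :=
  (B.g n : (Fin 2 → ZMod (p ^ n)) →+ tor p J n).comp (redV n)

theorem pr_apply (n : ℕ) (v : Fin 2 → ℤ_[p]) :
    B.pr n v = B.g n (fun i => PadicInt.toZModPow n (v i)) := rfl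

theorem mulP_pr (n : ℕ) (v : Fin 2 → ℤ_[p]) : mulP p n (B.pr (n + 1) v) = B.pr n v := by
  rw [pr_apply, pr_apply, ← g_step]
  congr 1
  funext i
  exact step_toZModPow p n (v i)

theorem p_smul_pr (n : ℕ) (v : Fin 2 → ℤ_[p]) : p • (B.pr (n + 1) v : J) = B.pr n v :=
  congrArg Subtype.val (B.mulP_pr n v)

theorem pr_surjective (n : ℕ) : Function.Surjective (B.pr n) := by
  intro x
  obtain ⟨w, rfl⟩ := (B.g n).surjective x
  choose v hv using fun i => ZMod.ringHom_surjective (PadicInt.toZModPow (p := p) n) (w i)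
  exact ⟨v, by rw [pr_apply]; congr 1; funext i; exact hv i⟩

theorem pr_eq_zero_iff (n : ℕ) (v : Fin 2 → ℤ_[p]) :
    B.pr n v = 0 ↔ ∃ w : Fin 2 → ℤ_[p], v = ((p : ℤ_[p]) ^ n) • w := by
  rw [pr_apply, map_eq_zero_iff _ (B.g n).injective]
  constructor
  · intro h
    have h1 : ∀ i, ∃ w, v i = (p : ℤ_[p]) ^ n * w := by
      intro i
      have h2 : PadicInt.toZModPow n (v i) = 0 := congrFun h i
      have h3 : v i ∈ RingHom.ker (PadicInt.toZModPow (p := p) n) := h2
      rw [PadicInt.ker_toZModPow, Ideal.mem_span_singleton] at h3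
      obtain ⟨w, hw⟩ := h3
      exact ⟨w, hw⟩
    choose w hw using h1
    exact ⟨w, funext fun i => hw i⟩
  · rintro ⟨w, rfl⟩
    funext i
    show PadicInt.toZModPow n ((p : ℤ_[p]) ^ n * w i) = 0
    have h3 : (p : ℤ_[p]) ^ n * w i ∈ RingHom.ker (PadicInt.toZModPow (p := p) n) := by
      rw [PadicInt.ker_toZModPow, Ideal.mem_span_singleton]
      exact Dvd.intro _ rfl
    exact h3

theorem ext_pr {v w : Fin 2 → ℤ_[p]} (h : ∀ n, (B.pr n v : J) = B.pr n w) : v = w := by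
  funext i
  refine PadicInt.ext_of_toZModPow.mp fun n => ?_
  have h1 := (B.g n).injective (Subtype.ext (h n))
  exact congrFun h1 i

theorem exists_lim (x : ∀ n, tor p J n) (hx : ∀ n, mulP p n (x (n + 1)) = x n) :
    ∃ v : Fin 2 → ℤ_[p], ∀ n, B.pr n v = x n := by
  have hc : ∀ i : Fin 2, (fun n => (B.g n).symm (x n) i) ∈ compatible p := by
    intro i n
    have h1 : (fun j => step p n ((B.g (n + 1)).symm (x (n + 1)) j)) = (B.g n).symm (x n) := by
      apply (B.g n).injective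
      rw [g_step, AddEquiv.apply_symm_apply, AddEquiv.apply_symm_apply, hx]
    exact congrFun h1 i
  refine ⟨fun i => limHom p ⟨_, hc i⟩, fun n => ?_⟩
  rw [pr_apply]
  apply (B.g n).symm.injective
  rw [AddEquiv.symm_apply_apply]
  funext i
  exact toZModPow_limHom p _ n

theorem pr_smul (n : ℕ) (a : ℤ_[p]) (v : Fin 2 → ℤ_[p]) :
    B.pr n (a • v) = (PadicInt.toZModPow n a).val • B.pr n v := by
  have hne : NeZero (p ^ n) := ⟨pow_ne_zero n hp.out.ne_zero⟩
  rw [pr_apply, pr_apply, ← map_nsmul]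
  congr 1
  funext i
  show PadicInt.toZModPow n (a * v i) = _
  rw [map_mul, Pi.smul_apply, nsmul_eq_mul, ZMod.natCast_val, ZMod.cast_id]

/-- the map induced by an additive endomorphism -/
noncomputable def ind (u : J →+ J) : Module.End ℤ_[p] (Fin 2 → ℤ_[p]) where
  toFun v := (B.exists_lim (fun n => ⟨u (B.pr n v), map_mem_tor p u (B.pr n v).2⟩) (fun n =>
    Subtype.ext (by
      change p • u (B.pr (n + 1) v : J) = u (B.pr n v)
      rw [← map_nsmul, B.p_smul_pr]))).choose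
  map_add' v w := by
    refine B.ext_pr fun n => ?_
    rw [map_add]
    have h := fun v => (B.exists_lim (fun n => ⟨u (B.pr n v), map_mem_tor p u (B.pr n v).2⟩)
      (fun n => Subtype.ext (by
        change p • u (B.pr (n + 1) v : J) = u (B.pr n v)
        rw [← map_nsmul, B.p_smul_pr]))).choose_spec n
    rw [h, h, h]
    show u (B.pr n (v + w)) = u (B.pr n v) + u (B.pr n w)
    rw [map_add, AddSubgroup.coe_add, map_add]
  map_smul' a v := by
    refine B.ext_pr fun n => ?_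
    rw [RingHom.id_apply, pr_smul]
    have h := fun v => (B.exists_lim (fun n => ⟨u (B.pr n v), map_mem_tor p u (B.pr n v).2⟩)
      (fun n => Subtype.ext (by
        change p • u (B.pr (n + 1) v : J) = u (B.pr n v)
        rw [← map_nsmul, B.p_smul_pr]))).choose_spec n
    rw [h, h]
    show u (B.pr n (a • v)) = _
    rw [pr_smul, AddSubgroup.coe_nsmul, map_nsmul, AddSubgroup.coe_nsmul]

theorem pr_ind (u : J →+ J) (n : ℕ) (v : Fin 2 → ℤ_[p]) : (B.pr n (B.ind u v) : J) = u (B.pr n v) :=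
  congrArg Subtype.val ((B.exists_lim
    (fun n => ⟨u (B.pr n v), map_mem_tor p u (B.pr n v).2⟩) (fun n =>
    Subtype.ext (by
      change p • u (B.pr (n + 1) v : J) = u (B.pr n v)
      rw [← map_nsmul, B.p_smul_pr]))).choose_spec n)

/-- the induced representation -/
noncomputable def rep (Gr : Type*) [Group Gr] [DistribMulAction Gr J] :
    Gr →* Module.End ℤ_[p] (Fin 2 → ℤ_[p]) where
  toFun s := B.ind (DistribSMul.toAddMonoidHom J s)
  map_one' := by
    refine LinearMap.ext fun v => B.ext_pr fun n => ?_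
    rw [pr_ind, Module.End.one_apply]
    exact one_smul Gr _
  map_mul' s t := by
    refine LinearMap.ext fun v => B.ext_pr fun n => ?_
    rw [pr_ind, Module.End.mul_apply, pr_ind, DistribSMul.toAddMonoidHom_apply,
      DistribSMul.toAddMonoidHom_apply, pr_ind, DistribSMul.toAddMonoidHom_apply, mul_smul]

theorem pr_rep {Gr : Type*} [Group Gr] [DistribMulAction Gr J] (s : Gr) (n : ℕ)
    (v : Fin 2 → ℤ_[p]) : (B.pr n (B.rep Gr s v) : J) = s • (B.pr n v : J) := B.pr_ind _ n v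

end TBasis

/-- Existence of compatible bases. -/
theorem exists_tBasis {p : ℕ} [hp : Fact p.Prime] {J : Type*} [AddCommGroup J]
    (hcard : ∀ n, Nat.card (tor p J n) = p ^ (2 * n)) : Nonempty (TBasis p J) := by
  obtain ⟨P, Q, h1, h2, h3, h4, h5⟩ := exists_compat_basis hcard
  exact ⟨⟨P, Q, h1, h2, h3, h4, h5, hcard⟩⟩

end Fermat.Agent.ERep
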