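import Fermat.Agent.Tate.Abs

/-!
# The Tate module of an abelian group `J` with `#J[p ^ n] = p ^ (2 n)`
-/

set_option autoImplicit false

namespace Fermat.Agent.ERep

open Fermat.Agent.Tate

section

variable {p : ℕ} [hp : Fact p.Prime] {J : Type*} [AddCommGroup J]

theorem card_tor_of (hcard : ∀ n, Nat.card (tor p J n) = p ^ (2 * n)) (n : ℕ) :
    Finite (tor p J n) :=
  Nat.finite_of_card_ne_zero (by rw [hcard]; exact pow_ne_zero _ hp.out.ne_zero)

/-- multiplication by `p` as a homomorphism -/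
def mulPHom (n : ℕ) : tor p J (n + 1) →+ tor p J n where
  toFun := mulP p n
  map_zero' := Subtype.ext (smul_zero p)
  map_add' x y := Subtype.ext (smul_add p (x : J) y)

theorem mulP_surjective (hcard : ∀ n, Nat.card (tor p J n) = p ^ (2 * n)) (n : ℕ) :
    Function.Surjective (mulP p (J := J) n) := by
  have := card_tor_of hcard (n + 1)
  have := card_tor_of hcard n
  have h1 : Nat.card (mulPHom (p := p) (J := J) n).ker = p ^ 2 := by
    have h2 := hcard 1
    rw [mul_one] at h2
    rw [← h2]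
    refine Nat.card_congr ⟨fun x => ⟨x.1.1, ?_⟩, fun x => ⟨⟨x.1, ?_⟩, ?_⟩, fun x => rfl,
      fun x => rfl⟩
    · have : p • (x.1.1 : J) = 0 := congrArg Subtype.val (AddMonoidHom.mem_ker.mp x.2)
      rw [mem_tor, pow_one]
      exact this
    · have := (mem_tor p).mp x.2
      rw [pow_one] at this
      rw [mem_tor, pow_succ, mul_smul, this, smul_zero]
    · have := (mem_tor p).mp x.2
      rw [pow_one] at this
      exact AddMonoidHom.mem_ker.mpr (Subtype.ext this)
  have h2 := AddSubgroup.card_eq_card_quotient_mul_card_addSubgroup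
    (mulPHom (p := p) (J := J) n).ker
  have h3 : Nat.card (tor p J (n + 1) ⧸ (mulPHom (p := p) (J := J) n).ker) =
      Nat.card (mulPHom (p := p) (J := J) n).range :=
    Nat.card_congr (QuotientAddGroup.quotientKerEquivRange _).toEquiv
  rw [h1, h3, hcard] at h2
  have h4 : Nat.card (mulPHom (p := p) (J := J) n).range = p ^ (2 * n) := by
    have hp0 : 0 < p ^ 2 := pow_pos hp.out.pos 2
    have h5 : p ^ (2 * (n + 1)) = p ^ (2 * n) * p ^ 2 := by rw [← pow_add]; ring_nf
    rw [h5] at h2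
    exact (Nat.eq_of_mul_eq_mul_right hp0 h2).symm
  have h5 : (mulPHom (p := p) (J := J) n).range = ⊤ :=
    AddSubgroup.eq_top_of_card_eq _ (by rw [h4, hcard])
  intro x
  have h6 : x ∈ (mulPHom (p := p) (J := J) n).range := by rw [h5]; trivial
  exact h6

omit hp in
/-- independence of a compatible pair -/
theorem indep {P Q : ℕ → J} (hP : ∀ n, p • P (n + 1) = P n) (hQ : ∀ n, p • Q (n + 1) = Q n)
    (h1 : ∀ a b : ℤ, a • P 1 + b • Q 1 = 0 → (p : ℤ) ∣ a ∧ (p : ℤ) ∣ b) (n : ℕ) :
    ∀ a b : ℤ, a • P n + b • Q n = 0 → (p : ℤ) ^ n ∣ a ∧ (p : ℤ) ^ n ∣ b := by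
  have hPn : ∀ n, (p ^ n : ℕ) • P (n + 1) = P 1 := by
    intro n
    induction n with
    | zero => simp
    | succ n ih => rw [pow_succ, mul_smul, hP, ih]
  have hQn : ∀ n, (p ^ n : ℕ) • Q (n + 1) = Q 1 := by
    intro n
    induction n with
    | zero => simp
    | succ n ih => rw [pow_succ, mul_smul, hQ, ih]
  induction n with
  | zero => intro a b _; simp
  | succ n ih =>
    intro a b h
    have h2 : a • P n + b • Q n = 0 := by
      have := congrArg (fun x => p • x) h
      simp only [smul_add, smul_zero] at this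
      rwa [smul_comm p a, smul_comm p b, hP, hQ] at this
    obtain ⟨⟨a', ha⟩, ⟨b', hb⟩⟩ := ih a b h2
    have h3 : a' • P 1 + b' • Q 1 = 0 := by
      rw [← hPn n, ← hQn n, ← h, ha, hb]
      congr 1
      · rw [mul_comm, mul_smul, ← natCast_zsmul (P (n + 1)), Nat.cast_pow]
      · rw [mul_comm, mul_smul, ← natCast_zsmul (Q (n + 1)), Nat.cast_pow]
    obtain ⟨⟨a'', ha'⟩, ⟨b'', hb'⟩⟩ := h1 a' b' h3
    exact ⟨⟨a'', by rw [ha, ha']; ring⟩, ⟨b'', by rw [hb, hb']; ring⟩⟩

/-- existence of a compatible basis -/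
theorem exists_compat_basis (hcard : ∀ n, Nat.card (tor p J n) = p ^ (2 * n)) :
    ∃ P Q : ℕ → J, (∀ n, P n ∈ tor p J n) ∧ (∀ n, Q n ∈ tor p J n) ∧
      (∀ n, p • P (n + 1) = P n) ∧ (∀ n, p • Q (n + 1) = Q n) ∧
      ∀ n, ∀ a b : ℤ, a • P n + b • Q n = 0 → (p : ℤ) ^ n ∣ a ∧ (p : ℤ) ^ n ∣ b := by
  have hlift : ∀ x : tor p J 1, ∃ f : ∀ n, tor p J (n + 1), f 0 = x ∧
      ∀ n, mulP p (n + 1) (f (n + 1)) = f n := by
    intro x
    choose g hg using mulP_surjective hcard
    let f : ∀ n, tor p J (n + 1) := fun n => Nat.rec x (fun n y => g (n + 1) y) n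
    exact ⟨f, rfl, fun n => hg (n + 1) (f n)⟩
  have hext : ∀ x : tor p J 1, ∃ P : ℕ → J, P 1 = x ∧ (∀ n, P n ∈ tor p J n) ∧
      ∀ n, p • P (n + 1) = P n := by
    intro x
    obtain ⟨f, hf0, hf⟩ := hlift x
    refine ⟨fun n => match n with
      | 0 => 0
      | n + 1 => f n, by rw [← hf0], fun n => ?_, fun n => ?_⟩
    · cases n with
      | zero => exact (tor p J 0).zero_mem
      | succ n => exact (f n).2
    · cases n with
      | zero =>
        have := (mem_tor p).mp (f 0).2
        rw [pow_one] at this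
        exact this
      | succ n => exact congrArg Subtype.val (hf n)
  have := card_tor_of hcard 1
  have hc1 : Nat.card (tor p J 1) = p ^ 2 := by rw [hcard, mul_one]
  have hnt : Nontrivial (tor p J 1) := by
    rw [← Finite.one_lt_card_iff_nontrivial, hc1]
    exact Nat.one_lt_pow two_ne_zero hp.out.one_lt
  obtain ⟨x, hx⟩ := exists_ne (0 : tor p J 1)
  have hpx : ∀ y : tor p J 1, p • y = 0 := by
    intro y
    have := (mem_tor p).mp y.2
    rw [pow_one] at this
    exact Subtype.ext this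
  have hordx : addOrderOf x = p := by
    rcases (Nat.dvd_prime hp.out).mp (addOrderOf_dvd_of_nsmul_eq_zero (hpx x)) with h | h
    · exact absurd (AddMonoid.addOrderOf_eq_one_iff.mp h) hx
    · exact h
  obtain ⟨y, hy⟩ : ∃ y, y ∉ AddSubgroup.zmultiples x := by
    by_contra hcon
    push Not at hcon
    have h1 : AddSubgroup.zmultiples x = ⊤ := eq_top_iff.mpr fun y _ => hcon y
    have h2 : Nat.card (AddSubgroup.zmultiples x) = p := by
      rw [Nat.card_zmultiples, hordx]
    rw [h1, AddSubgroup.card_top, hc1, sq] at h2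
    have h3 := hp.out.one_lt
    have h4 := hp.out.pos
    nlinarith
  have hind : ∀ a b : ℤ, a • x + b • y = 0 → (p : ℤ) ∣ a ∧ (p : ℤ) ∣ b := by
    intro a b h
    have hb : (p : ℤ) ∣ b := by
      by_contra hnb
      apply hy
      have hco : IsCoprime (p : ℤ) b :=
        (Nat.prime_iff_prime_int.mp hp.out).coprime_iff_not_dvd.mpr hnb
      obtain ⟨s, t, hst⟩ := hco
      have h1 : y = (-(t * a)) • x := by
        have h2 : y = (s * p + t * b) • y := by rw [hst, one_smul]
        have h3 : (s * p) • y = 0 := by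
          rw [mul_smul, natCast_zsmul, hpx, smul_zero]
        have h4 : b • y = -(a • x) := by
          rw [eq_neg_iff_add_eq_zero, add_comm]; exact h
        rw [h2, add_smul, h3, zero_add, mul_smul, h4, smul_neg, neg_smul, mul_smul]
      rw [h1]
      exact AddSubgroup.zsmul_mem_zmultiples x _
    refine ⟨?_, hb⟩
    obtain ⟨b', rfl⟩ := hb
    have h1 : ((p : ℤ) * b') • y = 0 := by
      rw [mul_comm, mul_smul, natCast_zsmul, hpx, smul_zero]
    rw [h1, add_zero] at h
    have h2 := addOrderOf_dvd_iff_zsmul_eq_zero.mpr h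
    rwa [hordx] at h2
  obtain ⟨P, hP1, hPt, hPc⟩ := hext x
  obtain ⟨Q, hQ1, hQt, hQc⟩ := hext y
  refine ⟨P, Q, hPt, hQt, hPc, hQc, indep hPc hQc ?_⟩
  intro a b h
  apply hind a b
  apply Subtype.ext
  rw [hP1, hQ1] at h
  exact h

end

end Fermat.Agent.ERep
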