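import Fermat.Agent.ERep.Main
import Fermat.Prelude.Def_GaloisRep_LocalConditions

/-!
# Traces and determinants of the `p`-adic representation of an elliptic curve
-/

set_option autoImplicit false

namespace Fermat.Agent.ERep

open WeierstrassCurve WeierstrassCurve.Affine WeierstrassCurve.Affine.Point
open Fermat.Agent.Tate Fermat.Agent.QuadRep

local notation "Qb" => AlgebraicClosure ℚ
local notation "GQ" => AlgebraicClosure ℚ ≃ₐ[ℚ] AlgebraicClosure ℚ

section

variable (E : WeierstrassCurve ℚ) [E.IsElliptic] (p : ℕ) [hp : Fact p.Prime]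

/-- the representation does not act through scalars -/
def NonScalar : Prop :=
  ∃ σ : GQ, ¬ ∃ c : ℤ_[p], repE E p σ = c • (1 : Module.End ℤ_[p] (Fin 2 → ℤ_[p]))

variable {W : WeierstrassCurve ℤ} (hWE : W.IsIntegralModelOf E)

include hWE in
theorem Δ_ne_zero : W.Δ ≠ 0 := by
  obtain ⟨C, hC⟩ := hWE
  intro h
  have h1 : (W.map (Int.castRingHom ℚ)).Δ = 0 := by rw [WeierstrassCurve.map_Δ, h, _root_.map_zero]
  rw [← hC, variableChange_Δ] at h1
  have h2 : E.Δ ≠ 0 := E.coe_Δ' ▸ E.Δ'.ne_zero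
  exact (mul_ne_zero (pow_ne_zero _ (Units.ne_zero _)) h2) h1

include hWE in
theorem exists_relE : ∃ t : GQ → ℤ_[p], ∀ σ, repE E p σ * repE E p σ - t σ • repE E p σ +
    cycE p σ • (1 : Module.End ℤ_[p] (Fin 2 → ℤ_[p])) = 0 := by
  classical
  let S : Finset ℕ := insert p (W.Δ.natAbs.primeFactors)
  have h := exists_quad_relation (O := ℤ_[p]) (p_mem p) (repE E p) (continuous_repE E p) S
    (Finset.mem_insert_self _ _) (fun ℓ => ((W.apOfModel ℓ : ℤ) : ℤ_[p])) (by
      intro ℓ hℓ hℓS A hA τ hτ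
      have h1 : ℓ ≠ p := fun h => hℓS (h ▸ Finset.mem_insert_self _ _)
      have h2 : W.IsGoodPrimeFor ℓ := by
        intro hd
        refine hℓS (Finset.mem_insert_of_mem ?_)
        rw [Nat.mem_primeFactors]
        exact ⟨hℓ, Int.natCast_dvd.mp hd, Int.natAbs_ne_zero.mpr (Δ_ne_zero E hWE)⟩
      exact repE_frob E p hWE hℓ hA h1 h2 hτ)
  choose t ht using h
  refine ⟨t, fun σ => ?_⟩
  have h1 := congrArg (fun x => x * repE E p σ) (ht σ)
  simp only [add_mul, smul_mul_assoc, one_mul] at h1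
  rw [← map_mul (repE E p) σ⁻¹ σ, inv_mul_cancel, map_one] at h1
  rw [← h1]
  abel

/-- trace function -/
noncomputable def trE (σ : GQ) : ℤ_[p] := LinearMap.trace ℤ_[p] _ (repE E p σ)

/-- determinant -/
noncomputable def detE (σ : GQ) : ℤ_[p] := LinearMap.det (repE E p σ)

variable (hns : NonScalar E p)

include hWE hns in
theorem relE (σ : GQ) : repE E p σ * repE E p σ - trE E p σ • repE E p σ +
      cycE p σ • (1 : Module.End ℤ_[p] (Fin 2 → ℤ_[p])) = 0 ∧ detE E p σ = cycE p σ := by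
  obtain ⟨t, ht⟩ := exists_relE E p hWE
  have hu : ∀ a, IsUnit (cycE p a) := fun a => by
    have : cycE p a * cycE p a⁻¹ = 1 := by rw [← map_mul, mul_inv_cancel, map_one]
    exact IsUnit.of_mul_eq_one _ this
  have h := trace_det_of_relation (by rw [Module.finrank_fin_fun]) (repE E p) t (cycE p)
    (fun a b => map_mul _ a b) (fun a => (hu a).ne_zero) ht hns σ
  rw [trE, detE, h.1, h.2]
  exact ⟨ht σ, rfl⟩

include hWE hns in
theorem det_eq_cyc (σ : GQ) : LinearMap.det (repE E p σ) = cycE p σ := (relE E p hWE hns σ).2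

include hWE hns in
theorem charpoly_repE (σ : GQ) :
    (repE E p σ).charpoly = Polynomial.X ^ 2 - Polynomial.C (trE E p σ) * Polynomial.X +
      Polynomial.C (cycE p σ) :=
  charpoly_of_trace_det (by rw [Module.finrank_fin_fun]) _ rfl (det_eq_cyc E p hWE hns σ)

include hWE hns in
/-- traces of Frobenius elements -/
theorem trE_frob {A : ValuationSubring Qb} {q : ℕ} (hq : q.Prime) (hA : A.LiesOverPrime q)
    (hqp : q ≠ p) (hW : W.IsGoodPrimeFor q) {σ : GQ} (hσ : A.IsFrobeniusAt σ q) :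
    trE E p σ = ((W.apOfModel q : ℤ) : ℤ_[p]) := by
  have h1 := repE_frob E p hWE hq hA hqp hW hσ
  have h2 := relE E p hWE hns σ
  have h3 : cycE p σ = q := cyc_frobenius (p_mem p) hq hqp hA hσ
  by_cases hsc : ∃ c : ℤ_[p], repE E p σ = c • (1 : Module.End ℤ_[p] (Fin 2 → ℤ_[p]))
  · obtain ⟨c, hc⟩ := hsc
    have h4 : c ^ 2 = q := by
      have := h2.2
      rw [detE, hc, LinearMap.det_smul, map_one, mul_one, Module.finrank_fin_fun, h3] at this
      exact this
    have h5 : trE E p σ = 2 * c := by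
      rw [trE, hc, map_smul, LinearMap.trace_one, Module.finrank_fin_fun, smul_eq_mul]
      push_cast; ring
    have hc0 : c ≠ 0 := by
      rintro rfl
      have : (q : ℤ_[p]) ≠ 0 := by exact_mod_cast hq.ne_zero
      apply this
      rw [← h4]
      ring
    rw [hc] at h1
    have h6 := congrFun (congrArg (fun f : Module.End ℤ_[p] (Fin 2 → ℤ_[p]) => f (fun _ => 1)) h1) 0
    simp only [LinearMap.add_apply, LinearMap.sub_apply, LinearMap.smul_apply, pow_two,
      Module.End.mul_apply, Module.End.one_apply, Pi.add_apply, Pi.sub_apply, Pi.smul_apply,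
      smul_eq_mul, mul_one, LinearMap.zero_apply, Pi.zero_apply] at h6
    have h7 : c * (2 * c - ((W.apOfModel q : ℤ) : ℤ_[p])) = 0 := by
      linear_combination h6 + h4
    rw [h5]
    exact sub_eq_zero.mp ((mul_eq_zero.mp h7).resolve_left hc0)
  · rw [pow_two] at h1
    exact (trace_det_end_of_not_scalar (by rw [Module.finrank_fin_fun]) _ h1 hsc).1

include hWE in
theorem unramified_adicE {q : ℕ} (hq : q.Prime) (hqp : q ≠ p) (hW : W.IsGoodPrimeFor q) :
    (adicE E p).IsUnramifiedAt q := fun _ hA _ hσ => repE_inertia_good E p hWE hq hA hqp hW hσ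

include hWE hns in
theorem detIsCyclotomic_adicE : (adicE E p).DetIsCyclotomic p := by
  refine ⟨p_mem p, fun n σ a h => ?_⟩
  have h1 : LinearMap.det ((adicE E p).ρ σ) = cycE p σ := det_eq_cyc E p hWE hns σ
  rw [h1]
  have h2 := cyc_sub_mem (O := ℤ_[p]) (p_mem p) n a σ h
  rw [PadicInt.maximalIdeal_eq_span_p, Ideal.span_singleton_pow] at h2
  push_cast
  exact h2

include hWE in
/-- a matrix `g` with `(g - 1)² = 0` has characteristic polynomial `(X - 1)²` -/
theorem unipotent_adicE {q : ℕ} (hq : q.Prime) (hqp : q ≠ p) (hΔ : (q : ℤ) ∣ W.Δ)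
    (hc : ¬ (q : ℤ) ∣ W.c₄) : (adicE E p).IsUnipotentOnInertiaAt q := by
  intro A hA σ hσ
  have h1 := repE_inertia_mult E p hWE hq hA hqp hΔ hc hσ hσ
  change (repE E p σ).charpoly = _
  have h2 : repE E p σ * repE E p σ - (2 : ℤ_[p]) • repE E p σ +
      (1 : ℤ_[p]) • (1 : Module.End ℤ_[p] (Fin 2 → ℤ_[p])) = 0 := by
    have h0 : (repE E p σ - 1) * (repE E p σ - 1) =
        repE E p σ * repE E p σ - (2 : ℤ_[p]) • repE E p σ +
      (1 : ℤ_[p]) • (1 : Module.End ℤ_[p] (Fin 2 → ℤ_[p])) := by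
      rw [two_smul, one_smul, sub_mul, mul_sub, mul_sub, one_mul, mul_one, one_mul]
      abel
    rw [← h0, h1]
  by_cases hsc : ∃ c : ℤ_[p], repE E p σ = c • (1 : Module.End ℤ_[p] (Fin 2 → ℤ_[p]))
  · obtain ⟨c, hc⟩ := hsc
    have hc1 : c = 1 := by
      rw [hc] at h1
      have h6 := congrFun (congrArg
        (fun f : Module.End ℤ_[p] (Fin 2 → ℤ_[p]) => f (fun _ => 1)) h1) 0
      simp only [LinearMap.sub_apply, LinearMap.smul_apply,
        Module.End.mul_apply, Module.End.one_apply, Pi.sub_apply, Pi.smul_apply,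
        smul_eq_mul, mul_one, LinearMap.zero_apply, Pi.zero_apply] at h6
      have h7 : (c - 1) * (c - 1) = 0 := by linear_combination h6
      exact sub_eq_zero.mp (mul_self_eq_zero.mp h7)
    rw [charpoly_of_trace_det (t := 2) (d := 1) (by rw [Module.finrank_fin_fun]) _
      (by rw [hc, hc1, one_smul, LinearMap.trace_one, Module.finrank_fin_fun]; norm_num)
      (by rw [hc, hc1, one_smul, map_one])]
    simp only [map_one, map_ofNat]
    ring
  · obtain ⟨h3, h4⟩ := trace_det_end_of_not_scalar (by rw [Module.finrank_fin_fun]) _ h2 hsc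
    rw [charpoly_of_trace_det (by rw [Module.finrank_fin_fun]) _ h3 h4]
    simp only [map_one, map_ofNat]
    ring

end

section Irr

variable (E : WeierstrassCurve ℚ) [E.IsElliptic] (p : ℕ) [hp : Fact p.Prime]

omit [E.IsElliptic] hp in
theorem tor_one_iff {x : (E⁄Qb).Point} :
    x ∈ Submodule.torsionBy ℤ (E⁄Qb).Point (p : ℤ) ↔ x ∈ tor p (E⁄Qb).Point 1 := by
  rw [mem_tor, pow_one, Submodule.mem_torsionBy_iff, natCast_zsmul]

/-- irreducibility of `E[p]` implies that the representation is not scalar -/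
theorem nonScalar_of_irreducible
    (hirr : Affine.Point.GaloisRepIsIrreducible (K := Qb) ℚ E p) : NonScalar E p := by
  by_contra hcon
  have hcon' : ∀ σ : GQ, ∃ c : ℤ_[p], repE E p σ = c • (1 : Module.End ℤ_[p] (Fin 2 → ℤ_[p])) := by
    intro σ
    by_contra h
    exact hcon ⟨σ, h⟩
  -- the first basis vector generates a stable line
  let v : Fin 2 → ℤ_[p] := Pi.single 0 1
  let w : Fin 2 → ℤ_[p] := Pi.single 1 1
  have hmem : ∀ u : Fin 2 → ℤ_[p], ((tb E p).pr 1 u : (E⁄Qb).Point) ∈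
      Submodule.torsionBy ℤ (E⁄Qb).Point (p : ℤ) := fun u =>
    (tor_one_iff E p).mpr ((tb E p).pr 1 u).2
  let x : Submodule.torsionBy ℤ (E⁄Qb).Point (p : ℤ) := ⟨(tb E p).pr 1 v, hmem v⟩
  have hstab : Affine.Point.IsGaloisStable (S := ℚ) (ZMod p ∙ x) := by
    intro σ y hy
    obtain ⟨a, rfl⟩ := Submodule.mem_span_singleton.mp hy
    obtain ⟨c, hc⟩ := hcon' σ
    have h1 : σ • x = (PadicInt.toZModPow 1 c).val • x := by
      apply Subtype.ext
      change σ • ((tb E p).pr 1 v : (E⁄Qb).Point) = _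
      rw [← pr_repE, hc, LinearMap.smul_apply, Module.End.one_apply, TBasis.pr_smul]
      rfl
    have h2 : σ • (a • x) = a • (σ • x) := by
      obtain ⟨m, rfl⟩ := ZMod.natCast_zmod_surjective a
      rw [Nat.cast_smul_eq_nsmul, Nat.cast_smul_eq_nsmul]
      exact map_nsmul (DistribSMul.toAddMonoidHom _ σ) m x
    rw [h2, h1]
    refine Submodule.smul_mem _ _ ?_
    exact nsmul_mem (Submodule.mem_span_singleton_self x) _
  rcases hirr.2 _ hstab with h | h
  · rw [Submodule.span_singleton_eq_bot] at h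
    have h1 : (tb E p).pr 1 v = 0 := by
      apply Subtype.ext
      have h0 : (x : (E⁄Qb).Point) = 0 := by rw [h]; rfl
      exact h0
    obtain ⟨u, hu⟩ := ((tb E p).pr_eq_zero_iff 1 v).mp h1
    have h2 := congrFun hu 0
    simp only [v, Pi.single_eq_same, pow_one, Pi.smul_apply, smul_eq_mul] at h2
    exact PadicInt.prime_p.not_dvd_one ⟨_, h2⟩
  · have hw : (⟨(tb E p).pr 1 w, hmem w⟩ : Submodule.torsionBy ℤ (E⁄Qb).Point (p : ℤ)) ∈
      (ZMod p ∙ x) := by rw [h]; trivial
    obtain ⟨a, ha⟩ := Submodule.mem_span_singleton.mp hw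
    obtain ⟨m, rfl⟩ := ZMod.natCast_zmod_surjective a
    rw [Nat.cast_smul_eq_nsmul] at ha
    have h1 : (tb E p).pr 1 (w - m • v) = 0 := by
      rw [map_sub, map_nsmul, sub_eq_zero]
      exact Subtype.ext (congrArg Subtype.val ha).symm
    obtain ⟨u, hu⟩ := ((tb E p).pr_eq_zero_iff 1 _).mp h1
    have h2 := congrFun hu 1
    simp only [v, w, Pi.sub_apply, Pi.single_eq_same, pow_one, Pi.smul_apply, smul_eq_mul] at h2
    rw [Pi.single_eq_of_ne (by decide), smul_zero, sub_zero] at h2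
    exact PadicInt.prime_p.not_dvd_one ⟨_, h2⟩

end Irr

end Fermat.Agent.ERep
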